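import Fermat.Agent.TwoAdic.NewformRep.Basic
import Fermat.Agent.TwoAdic.Galois.Basic
import Fermat.Agent.TwoAdic.Curve.AtTwo

/-!
# Inertia at `2` on a newform representation congruent to a curve acts pro-unipotently

Modulo the maximal ideal the traces agree with those of `rhoBar W`, which vanish on inertia at
`2`.
-/

set_option autoImplicit false

noncomputable section

open CongruenceSubgroup IsLocalRing

namespace Fermat.Agent.TwoAdic.NewformRep2

open Arith (QBar GQ)

/-- Ring homomorphisms commute with the trace. -/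
theorem trace_map {R S : Type} [CommRing R] [CommRing S] (f : R →+* S) (M : M2 R) :
    (M.map f).trace = f M.trace := by
  simp [Matrix.trace_fin_two]

/-- Traces of powers of two by two matrices with equal trace and determinant agree. -/
theorem trace_pow_eq {k : Type} [CommRing k] [Nontrivial k] {A B : M2 k} (ht : A.trace = B.trace)
    (hd : A.det = B.det) (n : ℕ) : (A ^ n).trace = (B ^ n).trace := by
  have key : ∀ (M : M2 k) (m : ℕ),
      (M ^ (m + 2)).trace = M.trace * (M ^ (m + 1)).trace - M.det * (M ^ m).trace := by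
    intro M m
    have hCH := Matrix.aeval_self_charpoly M
    rw [Matrix.charpoly_fin_two] at hCH
    simp only [map_add, map_sub, map_mul, Polynomial.aeval_X, Polynomial.aeval_C,
      Algebra.algebraMap_eq_smul_one, smul_mul_assoc, one_mul, map_pow] at hCH
    have h := congrArg (fun Y => (M ^ m * Y).trace) hCH
    simp only [mul_add, mul_sub, mul_smul_comm, mul_one, Matrix.trace_add, Matrix.trace_sub,
      Matrix.trace_smul, ← pow_add, ← pow_succ, mul_zero, Matrix.trace_zero, smul_eq_mul] at h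
    linear_combination h
  induction n using Nat.strong_induction_on with
  | _ n ih =>
    rcases n with - | - | n
    · rw [pow_zero, pow_zero]
    · rw [pow_one, pow_one, ht]
    · rw [key, key, ht, hd, ih _ (by omega), ih _ (by omega)]

/-- A two by two matrix with trace and determinant congruent to `2` and `1` has large two-power
powers close to `1`. -/
theorem pow_two_pow_sub_one_mem {O : Type} [CommRing O] [Nontrivial O] (I : Ideal O) (h2 : (2 : O) ∈ I)
    {X : M2 O} (ht : X.trace ∈ I) (hd : X.det - 1 ∈ I) :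
    ∀ j : ℕ, ∀ a b, (X ^ 2 ^ (j + 1) - 1 : M2 O) a b ∈ I ^ (j + 1) := by
  intro j
  induction j with
  | zero =>
    intro a b
    have hCH := Matrix.aeval_self_charpoly X
    rw [Matrix.charpoly_fin_two] at hCH
    simp only [map_add, map_sub, map_mul, Polynomial.aeval_X, Polynomial.aeval_C,
      Algebra.algebraMap_eq_smul_one, smul_mul_assoc, one_mul, map_pow] at hCH
    have e : X ^ 2 ^ (0 + 1) - 1 = X.trace • X - (X.det + 1) • (1 : M2 O) := by
      rw [zero_add, pow_one, add_smul, one_smul, ← sub_eq_zero, ← hCH]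
      abel
    rw [e, zero_add, pow_one, Matrix.sub_apply, Matrix.smul_apply, Matrix.smul_apply]
    refine sub_mem (I.mul_mem_right _ ht) (I.mul_mem_right _ ?_)
    have : X.det + 1 = X.det - 1 + 2 := by ring
    rw [this]
    exact add_mem hd h2
  | succ j ih =>
    intro a b
    set Y := X ^ 2 ^ (j + 1) - 1 with hY
    have e : X ^ 2 ^ (j + 1 + 1) - 1 = Y * Y + (2 : O) • Y := by
      rw [pow_succ 2 (j + 1), pow_mul, hY, two_smul, pow_two]
      noncomm_ring
    rw [e, Matrix.add_apply, Matrix.mul_apply, Matrix.smul_apply, smul_eq_mul, pow_succ]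
    refine add_mem (Ideal.sum_mem _ fun c _ => Ideal.mul_mem_mul (ih a c) ?_) ?_
    · exact Ideal.pow_le_self (Nat.succ_ne_zero j) (ih c b)
    · rw [mul_comm (2 : O)]
      exact Ideal.mul_mem_mul (ih a b) h2

namespace Coeffs

variable {L : ℕ} [NeZero L] {g : CuspForm (Gamma0 L) 2} {hg : g.IsNormalizedEigenform}
  {𝔪 : Ideal Forms.ZBar} (C : Coeffs hg 𝔪)

theorem det_sub_one_mem (σ : GQ) : (C.rep σ).det - 1 ∈ maximalIdeal C.O := by
  have h := C.det_congr_cyclotomic 1 σ 1 fun ζ hζ => by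
    rw [pow_one] at hζ ⊢
    rcases sq_eq_one_iff.mp hζ with rfl | rfl <;> simp
  rw [Nat.cast_one, Ideal.mem_span_singleton, pow_one] at h
  obtain ⟨c, hc⟩ := h
  rw [hc]
  exact Ideal.mul_mem_right c _ C.two_mem

/-- The traces are congruent to those of the residual representation of the curve. -/
theorem trace_congr {W : WeierstrassCurve ℤ} (hW : IsClassC W) {abar : ℕ → ZMod 2}
    (habar : ∀ ℓ : ℕ, ℓ.Prime → ℓ ≠ 2 → W.IsGoodPrimeFor ℓ →
      abar ℓ = (W.apOfModel ℓ : ZMod 2))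
    (hcong : Forms.IsCongruentTo 𝔪 abar L g) (σ : GQ) :
    residue C.O (C.rep σ).trace =
      ((rhoBar W hW.Δ_ne_zero σ).trace.val : ResidueField C.O) := by
  classical
  have hΔ := hW.Δ_ne_zero
  set k := ResidueField C.O
  have hk2 : (2 : k) = 0 := by
    rw [← map_ofNat (residue C.O) 2, residue_eq_zero_iff]
    exact C.two_mem
  have : CharP k 2 :=
    (CharP.charP_iff_prime_eq_zero Nat.prime_two).mpr (by exact_mod_cast hk2)
  let ψ : ZMod 2 →+* k := ZMod.castHom dvd_rfl k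
  have hψ : ∀ x : ZMod 2, (x.val : k) = ψ x := fun x => by
    rw [← map_natCast ψ, ZMod.natCast_zmod_val]
  obtain ⟨L₁, hL₁, h₁⟩ := C.finiteLevel_rep 1
  obtain ⟨L₂, hL₂, h₂⟩ := isFiniteLevel_rhoPow hΔ 1
  let A : GQ →* M2 k := (residue C.O).mapMatrix.toMonoidHom.comp C.rep
  let B : GQ →* M2 k := ψ.mapMatrix.toMonoidHom.comp (rhoBar W hΔ)
  have hA : ∀ x : GQ, (∀ y ∈ L₁, x y = y) → A x = 1 := fun x hx => by
    have h := h₁ x hx
    have hle : ∀ a ∈ Ideal.span {(2 : C.O) ^ 1}, residue C.O a = 0 := fun a ha => by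
      rw [pow_one, Ideal.mem_span_singleton] at ha
      obtain ⟨c, rfl⟩ := ha
      rw [residue_eq_zero_iff]
      exact Ideal.mul_mem_right c _ C.two_mem
    have h' := congrArg (Ideal.Quotient.lift _ (residue C.O) hle).mapMatrix h
    rw [map_one] at h'
    rw [← h']
    ext i j
    rfl
  have hB : ∀ x : GQ, (∀ y ∈ L₂, x y = y) → B x = 1 := fun x hx => by
    show ψ.mapMatrix (rhoBar W hΔ x) = 1
    rw [← rhoPow_map hΔ (ZMod.castHom (dvd_of_eq (pow_one 2).symm) (ZMod 2)) x, h₂ x hx]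
    ext i j
    rcases eq_or_ne i j with rfl | hij <;> simp [*]
  obtain ⟨ℓ, hℓ, hℓS, P, hP, s, hs, n, hn⟩ := GaloisReps.frobeniusDensity (L₁ ⊔ L₂)
    inferInstance σ ((2 * L * W.Δ.natAbs).primeFactors)
  have hne : 2 * L * W.Δ.natAbs ≠ 0 :=
    mul_ne_zero (mul_ne_zero two_ne_zero (NeZero.ne L)) (Int.natAbs_ne_zero.mpr hΔ)
  have hndvd : ¬ ℓ ∣ 2 * L * W.Δ.natAbs := fun h => hℓS (Nat.mem_primeFactors.mpr ⟨hℓ, h, hne⟩)
  have hℓL : ¬ ℓ ∣ 2 * L := fun h => hndvd (dvd_mul_of_dvd_left h _)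
  have hℓ2 : ℓ ≠ 2 := fun h => hℓL (h ▸ dvd_mul_right 2 L)
  have hgood : W.IsGoodPrimeFor ℓ := fun h => hndvd (dvd_mul_of_dvd_right (Int.natCast_dvd.mp h) _)
  have hfix : ∀ (F : GQ →* M2 k) (L' : IntermediateField ℚ QBar), L' ≤ L₁ ⊔ L₂ →
      (∀ x : GQ, (∀ y ∈ L', x y = y) → F x = 1) → F σ = F s ^ n := by
    intro F L' hle hF
    have h1 : F ((s ^ n)⁻¹ * σ) = 1 := hF _ fun y hy => by
      rw [AlgEquiv.mul_apply, hn y (hle hy), ← AlgEquiv.mul_apply, inv_mul_cancel]
      rfl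
    rw [← map_pow, ← mul_one (F (s ^ n)), ← h1, ← map_mul, mul_inv_cancel_left]
  have eA : A σ = A s ^ n := hfix A L₁ le_sup_left hA
  have eB : B σ = B s ^ n := hfix B L₂ le_sup_right hB
  obtain ⟨htr, hdet⟩ := C.frobenius_rep hℓ hℓL hP hs
  obtain ⟨htrW, -⟩ := rhoPow_frobenius hΔ hℓ hℓ2 hgood hP hs 1
  obtain ⟨a, ha, ha𝔪⟩ := hcong ℓ hℓ fun h => hℓL (dvd_mul_of_dvd_right h 2)
  have et : (A s).trace = (B s).trace := by
    show ((C.rep s).map (residue C.O)).trace = ((rhoBar W hΔ s).map ψ).trace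
    rw [trace_map, trace_map]
    have hW' : (rhoBar W hΔ s).trace = abar ℓ := by
      have f := rhoPow_map hΔ (ZMod.castHom (dvd_of_eq (pow_one 2).symm) (ZMod 2)) s (n := 1)
      rw [← f, trace_map, htrW,
        habar ℓ hℓ hℓ2 hgood]
      exact map_intCast _ _
    rw [hW', htr]
    show residue C.O _ = ψ _
    rw [← hψ, ← map_natCast (residue C.O), ← sub_eq_zero, ← map_sub, residue_eq_zero_iff]
    have e1 : ConductorLevel.eigenChar hg ∅
        (HeckeDuality.heckeOp L 2 ℓ hℓ - ((abar ℓ).val : GaloisReps.FullHecke L)) =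
        ((a - ((abar ℓ).val : Forms.ZBar) : Forms.ZBar) : ℂ) := by
      rw [map_sub, map_natCast]
      show ModularFormClass.qCoeff ((HeckeDuality.heckeOp L 2 ℓ hℓ).1 g) 1 - _ = _
      rw [ConductorLevel.heckeOp_eigen hg hℓ, HeckeDuality.coeff_smul, hg.qCoeff_one, mul_one,
        ← ha]
      push_cast
      rfl
    have h := (C.θ_mem _ _ e1).mpr ha𝔪
    rwa [map_sub, map_natCast] at h
  have ed : (A s).det = (B s).det := by
    show ((residue C.O).mapMatrix (C.rep s)).det = (ψ.mapMatrix (rhoBar W hΔ s)).det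
    rw [← RingHom.map_det, ← RingHom.map_det, rhoBar_det, map_one, ← map_one (residue C.O),
      ← sub_eq_zero, ← map_sub, residue_eq_zero_iff]
    exact C.det_sub_one_mem s
  have key := trace_pow_eq et ed n
  rw [← eA, ← eB] at key
  rw [hψ]
  rw [← trace_map, ← trace_map]
  exact key

/-- Inertia at `2` has trace in the maximal ideal. -/
theorem trace_inertia_two_mem {W : WeierstrassCurve ℤ} (hW : IsClassC W) {abar : ℕ → ZMod 2}
    (habar : ∀ ℓ : ℕ, ℓ.Prime → ℓ ≠ 2 → W.IsGoodPrimeFor ℓ →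
      abar ℓ = (W.apOfModel ℓ : ZMod 2))
    (hcong : Forms.IsCongruentTo 𝔪 abar L g) {P : ValuationSubring QBar} (hP : P.LiesOverPrime 2)
    {τ : GQ} (hτ : τ ∈ P.inertiaSubgroupIn ℚ) : (C.rep τ).trace ∈ maximalIdeal C.O := by
  have hgood : W.IsGoodPrimeFor 2 := fun h => by
    have := hW.Δ_mod_eight
    omega
  obtain ⟨α, u, -, -, h⟩ := exists_ordinary_two hW.Δ_ne_zero hgood hW.ap_two_odd
  obtain ⟨σ, hσ⟩ := Arith.exists_isFrobeniusAt hP Nat.prime_two
  have ht := ((h P hP σ hσ).2 τ hτ).1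
  rw [← residue_eq_zero_iff, C.trace_congr hW habar hcong]
  have hd : PadicInt.toZMod (rho W hW.Δ_ne_zero τ).det = (1 : ZMod 2) :=
    (RingHom.map_det (PadicInt.toZMod (p := 2)) _).trans (rhoBar_det hW.Δ_ne_zero τ)
  have e : (rhoBar W hW.Δ_ne_zero τ).trace = 0 := by
    show ((rho W hW.Δ_ne_zero τ).map (PadicInt.toZMod (p := 2))).trace = 0
    rw [trace_map, ht, map_add, map_one, hd]
    rfl
  rw [e, ZMod.val_zero, Nat.cast_zero]

/-- Inertia at `2` acts on every finite level through a `2`-group. -/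
theorem exists_pow_rep_inertia_two {W : WeierstrassCurve ℤ} (hW : IsClassC W)
    {abar : ℕ → ZMod 2}
    (habar : ∀ ℓ : ℕ, ℓ.Prime → ℓ ≠ 2 → W.IsGoodPrimeFor ℓ →
      abar ℓ = (W.apOfModel ℓ : ZMod 2))
    (hcong : Forms.IsCongruentTo 𝔪 abar L g) {P : ValuationSubring QBar} (hP : P.LiesOverPrime 2)
    {τ : GQ} (hτ : τ ∈ P.inertiaSubgroupIn ℚ) (k : ℕ) :
    ∃ j : ℕ, ∀ a b, (C.rep (τ ^ 2 ^ j) - 1 : M2 C.O) a b ∈ Ideal.span {(2 : C.O) ^ k} := by
  obtain ⟨ϖ, hϖ⟩ := IsDiscreteValuationRing.exists_irreducible C.O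
  obtain ⟨m, hm⟩ := IsDiscreteValuationRing.ideal_eq_span_pow_irreducible
    (s := Ideal.span {(2 : C.O) ^ k})
    (by simp) hϖ
  refine ⟨m + 1, fun a b => ?_⟩
  rw [map_pow]
  have h := pow_two_pow_sub_one_mem (maximalIdeal C.O) C.two_mem
    (C.trace_inertia_two_mem hW habar hcong hP hτ) (C.det_sub_one_mem τ) m a b
  rw [hm]
  refine Ideal.pow_le_pow_right (Nat.le_succ m) h |> fun h' => ?_
  rwa [hϖ.maximalIdeal_eq, Ideal.span_singleton_pow] at h'

end Coeffs

end Fermat.Agent.TwoAdic.NewformRep2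

end
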