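import Fermat.Agent.TwoAdic.NewformRep.Points
import Fermat.Agent.TwoAdic.NewformRep.Unip

/-!
# The two-adic representation of an ordinary newform at `2`

Inertia acts on the quotient by its multiplicative line trivially and Frobenius by the unit root of
`X² - a₂ X + 2`.
-/

set_option autoImplicit false
set_option linter.style.haveILetI false
set_option maxHeartbeats 1000000
set_option synthInstance.maxHeartbeats 400000

noncomputable section

open CongruenceSubgroup ModularCurve IsLocalRing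

namespace Fermat.Agent.TwoAdic.NewformRep2

open Arith (QBar GQ)

namespace Coeffs

variable {L : ℕ} [NeZero L] {g : CuspForm (Gamma0 L) 2} {hg : g.IsNormalizedEigenform}
  {𝔪 : Ideal Forms.ZBar} (C : Coeffs hg 𝔪)

/-- The vectors all of whose classes reduce to zero. -/
def IsConn (A : ValuationSubring QBar) (v : C.Lat) : Prop :=
  ∀ k i, reductionModL A L (C.pts k i v) = 0

theorem isConn_inertia_sub {A : ValuationSubring QBar} (hA : A.LiesOverPrime 2) (hL : ¬ 2 ∣ L)
    {τ : GQ} (hτ : τ ∈ A.inertiaSubgroupIn ℚ) (v : C.Lat) : C.IsConn A (C.act τ v - v) :=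
  fun k i => by
    rw [map_sub, ← smul_pts]
    exact LocalTwo.red_smul_sub hA hL hτ _

theorem isConn_quadratic {A : ValuationSubring QBar} (hA : A.LiesOverPrime 2) (hL : ¬ 2 ∣ L)
    {σ : GQ} (hσ : A.IsFrobeniusAt σ 2) (v : C.Lat) :
    C.IsConn A (C.act σ (C.act σ v) -
      C.θ (HeckeDuality.heckeOp L 2 2 Nat.prime_two) • C.act σ v + (2 : C.O) • v) :=
  fun k i => by
    have h := EichlerShimura.reductionModL_quadratic Nat.prime_two hL hA hσ (C.pts k i v)
    have e2 : (2 : C.O) • v = 2 • v := by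
      rw [← Nat.cast_smul_eq_nsmul C.O, Nat.cast_ofNat]
    rw [e2, map_add, map_sub, map_nsmul, ← smul_pts, ← smul_pts, ← hecke_pts, ← smul_pts]
    exact h

theorem exists_root_exponent (τ : GQ) (k : ℕ) :
    ∃ c : ℕ, ∀ ζ : QBar, ζ ^ 2 ^ k = 1 → τ ζ = ζ ^ c := by
  have : NeZero (2 ^ k) := ⟨pow_ne_zero k two_ne_zero⟩
  obtain ⟨μ, hμ⟩ := HasEnoughRootsOfUnity.exists_primitiveRoot QBar (2 ^ k)
  obtain ⟨c, -, hc⟩ := hμ.eq_pow_of_pow_eq_one
    (show (τ μ) ^ 2 ^ k = 1 by rw [← map_pow, hμ.pow_eq_one, map_one])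
  refine ⟨c, fun ζ hζ => ?_⟩
  obtain ⟨i, -, rfl⟩ := hμ.eq_pow_of_pow_eq_one hζ
  rw [map_pow, ← hc, ← pow_mul, ← pow_mul, mul_comm]

/-- Inertia elements act on the connected vectors by the determinant. -/
theorem inertia_conn {A : ValuationSubring QBar} (hA : A.LiesOverPrime 2) (hL : ¬ 2 ∣ L)
    (hunip : ∀ τ ∈ A.inertiaSubgroupIn ℚ, ∀ k, ∃ j : ℕ,
      ∀ a b, (C.rep (τ ^ 2 ^ j) - 1 : M2 C.O) a b ∈ Ideal.span {(2 : C.O) ^ k})
    {τ : GQ} (hτ : τ ∈ A.inertiaSubgroupIn ℚ) {v : C.Lat} (hv : C.IsConn A v) :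
    C.act τ v = LinearMap.det (C.act τ) • v := by
  rw [← sub_eq_zero]
  refine Subtype.ext (funext fun l => GaloisReps.HeckeGaloisModel.eq_zero_of_forall_pow_dvd
    C.natTwo_mem fun k => ?_)
  obtain ⟨c, hc⟩ := exists_root_exponent τ k
  obtain ⟨e, he⟩ : (2 : C.O) ^ k ∣ LinearMap.det (C.act τ) - (c : C.O) := by
    rw [← C.det_rep, ← Ideal.mem_span_singleton]
    exact C.det_congr_cyclotomic k τ c hc
  have hstab : ∀ i, ∀ σ ∈ A.inertiaSubgroupIn ℚ, ∀ x ∈ (C.pts k i).range,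
      σ • x ∈ (C.pts k i).range := by
    rintro i σ - _ ⟨w, rfl⟩
    exact ⟨C.act σ w, (C.smul_pts k i σ w).symm⟩
  have hpow : ∀ i, ∀ σ ∈ A.inertiaSubgroupIn ℚ, ∃ j : ℕ, ∀ y ∈ (C.pts k i).range,
      reductionModL A L y = 0 → σ ^ 2 ^ j • y = y := by
    intro i σ hσ
    obtain ⟨j, hj⟩ := hunip σ hσ k
    refine ⟨j, ?_⟩
    rintro _ ⟨w, rfl⟩ -
    rw [C.smul_pts, ← sub_eq_zero, ← map_sub]
    refine C.pts_eq_zero i fun m => ?_
    set u := C.act (σ ^ 2 ^ j) w - w with hu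
    have hcoord : ∀ a, (2 : C.O) ^ k ∣ C.basis.repr u a := fun a => by
      have h : C.basis.repr u a =
          ∑ b, (C.rep (σ ^ 2 ^ j) - 1 : M2 C.O) a b * C.basis.repr w b := by
        have h1 := congrFun (LinearMap.toMatrix_mulVec_repr C.basis C.basis
          (C.act (σ ^ 2 ^ j)) w) a
        have e3 : C.basis.repr u a =
            C.basis.repr (C.act (σ ^ 2 ^ j) w) a - C.basis.repr w a := by
          rw [hu, map_sub, Finsupp.sub_apply]
        rw [e3, ← h1]
        show ((C.rep (σ ^ 2 ^ j)).mulVec (C.basis.repr w)) a - _ =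
          ((C.rep (σ ^ 2 ^ j) - 1 : M2 C.O).mulVec (C.basis.repr w)) a
        rw [Matrix.sub_mulVec, Matrix.one_mulVec, Pi.sub_apply]
      rw [h]
      exact Finset.dvd_sum fun b _ =>
        dvd_mul_of_dvd_left (Ideal.mem_span_singleton.mp (hj a b)) _
    rw [← C.basis.sum_repr u, Submodule.coe_sum, Finset.sum_apply]
    refine Finset.dvd_sum fun a _ => ?_
    rw [SetLike.val_smul, Pi.smul_apply, smul_eq_mul]
    exact dvd_mul_of_dvd_left (hcoord a) _
  have h0 : ∀ i, C.pts k i (C.act τ v - (c : C.O) • v) = 0 := by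
    intro i
    rw [map_sub, Nat.cast_smul_eq_nsmul, map_nsmul, ← smul_pts, sub_eq_zero]
    exact LocalTwo.inertia_smul_of_red_eq_zero hA hL _
      (fun x => by rintro ⟨w, rfl⟩; exact C.pow_smul_pts k i w) (hstab i) (hpow i) hτ hc
      ⟨v, rfl⟩ (hv k i)
  have h1 := C.dvd_of_pts h0 l
  rw [AddSubgroupClass.coe_sub, SetLike.val_smul, Pi.sub_apply, Pi.smul_apply, smul_eq_mul]
    at h1 ⊢
  have : (C.act τ v).1 l - LinearMap.det (C.act τ) * v.1 l =
      (C.act τ v).1 l - (c : C.O) * v.1 l - (2 : C.O) ^ k * (e * v.1 l) := by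
    rw [eq_add_of_sub_eq he]
    ring
  rw [this, Nat.cast_ofNat]
  exact dvd_sub h1 (dvd_mul_right _ _)

theorem inertia_sub_mul_eq_zero {A : ValuationSubring QBar} (hA : A.LiesOverPrime 2)
    (hL : ¬ 2 ∣ L)
    (hunip : ∀ τ ∈ A.inertiaSubgroupIn ℚ, ∀ k, ∃ j : ℕ,
      ∀ a b, (C.rep (τ ^ 2 ^ j) - 1 : M2 C.O) a b ∈ Ideal.span {(2 : C.O) ^ k})
    {τ : GQ} (hτ : τ ∈ A.inertiaSubgroupIn ℚ) {f : Module.End C.O C.Lat}
    (hf : ∀ v, C.IsConn A (f v)) :
    (C.rep τ - (C.rep τ).det • 1) * C.toMat f = 0 := by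
  have e : (C.act τ - LinearMap.det (C.act τ) • 1) * f = 0 := LinearMap.ext fun v => by
    rw [Module.End.mul_apply, LinearMap.sub_apply, LinearMap.smul_apply, Module.End.one_apply,
      C.inertia_conn hA hL hunip hτ (hf v), sub_self]
    rfl
  have h := congrArg C.toMat e
  rw [map_mul, map_sub C.toMat, map_smul, map_one, map_zero, ← rep_apply, ← det_rep] at h
  exact h

theorem exists_unit_root {a : C.O} (ha : IsUnit a) :
    ∃ α u α' : C.O, u * α = 1 ∧ α * α - a * α + 2 = 0 ∧ α + α' = a ∧ α * α' = 2 ∧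
      α' ∈ maximalIdeal C.O := by
  let f : Polynomial C.O := Polynomial.X ^ 2 + (Polynomial.C (-a) * Polynomial.X + Polynomial.C 2)
  have hmonic : f.Monic := Polynomial.monic_X_pow_add
    (lt_of_le_of_lt (Polynomial.degree_linear_le) (by norm_num))
  obtain ⟨α, hα, hαa⟩ := HenselianRing.is_henselian f hmonic a
    (show f.eval a ∈ maximalIdeal C.O by
      simp only [f, Polynomial.eval_add, Polynomial.eval_mul, Polynomial.eval_pow,
        Polynomial.eval_X, Polynomial.eval_C]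
      rw [show a ^ 2 + (-a * a + 2) = (2 : C.O) by ring]
      exact C.two_mem)
    (by
      refine IsUnit.map _ ?_
      simp only [f, Polynomial.derivative_add, Polynomial.derivative_mul, Polynomial.derivative_C,
        Polynomial.derivative_X, Polynomial.derivative_X_pow, Polynomial.eval_add,
        Polynomial.eval_mul, Polynomial.eval_pow, Polynomial.eval_X, Polynomial.eval_C]
      simpa [two_mul] using ha)
  have hroot : α * α - a * α + 2 = 0 := by
    have h : f.eval α = 0 := hα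
    simp only [f, Polynomial.eval_add, Polynomial.eval_mul, Polynomial.eval_pow,
      Polynomial.eval_X, Polynomial.eval_C] at h
    linear_combination h
  have hunit : IsUnit α := by
    by_contra h
    have h1 := sub_mem ((mem_maximalIdeal _).mpr h) hαa
    rw [sub_sub_cancel] at h1
    exact ((mem_maximalIdeal _).mp h1) ha
  obtain ⟨u, hu⟩ := hunit.exists_left_inv
  refine ⟨α, u, a - α, hu, hroot, add_sub_cancel α a, by linear_combination -hroot, ?_⟩
  have := neg_mem hαa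
  rwa [neg_sub] at this

theorem isUnit_rep (σ : GQ) : IsUnit (C.rep σ) := (Group.isUnit σ).map C.rep

theorem det_ne_one_of_moves_four {τ : GQ} {c : ℕ}
    (hc : ∀ ζ : QBar, ζ ^ 2 ^ 2 = 1 → τ ζ = ζ ^ c) (hc3 : c % 4 = 3) : (C.rep τ).det ≠ 1 := by
  intro h1
  have h := C.det_congr_cyclotomic 2 τ c hc
  rw [h1, Ideal.mem_span_singleton] at h
  obtain ⟨d, hd⟩ := h
  have hc' : (c : C.O) = 4 * ((c / 4 : ℕ) : C.O) + 3 := by
    conv_lhs => rw [← Nat.div_add_mod c 4, hc3]
    push_cast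
    rfl
  have h2 : (2 : C.O) * (-1 - 2 * ((c / 4 : ℕ) : C.O)) = 2 * (2 * d) := by
    linear_combination hd + hc'
  have h3 := mul_left_cancel₀ two_ne_zero h2
  refine (maximalIdeal.isMaximal C.O).ne_top ((Ideal.eq_top_iff_one _).mpr ?_)
  rw [show (1 : C.O) = 2 * -(((c / 4 : ℕ) : C.O) + d) by linear_combination -h3]
  exact Ideal.mul_mem_right _ _ C.two_mem

/-- The local shape at `2`. -/
theorem two_of_unipotent (hL : ¬ 2 ∣ L)
    (ha : IsUnit (C.θ (HeckeDuality.heckeOp L 2 2 Nat.prime_two)))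
    (hunip : ∀ A : ValuationSubring QBar, A.LiesOverPrime 2 →
      ∀ τ ∈ A.inertiaSubgroupIn ℚ, ∀ k, ∃ j : ℕ,
        ∀ a b, (C.rep (τ ^ 2 ^ j) - 1 : M2 C.O) a b ∈ Ideal.span {(2 : C.O) ^ k}) :
    ∃ α u : C.O, u * α = 1 ∧
      α * α - C.θ (HeckeDuality.heckeOp L 2 2 Nat.prime_two) * α + 2 = 0 ∧
      ∀ P : ValuationSubring QBar, P.LiesOverPrime 2 → ∀ σ : GQ, P.IsFrobeniusAt σ 2 →
        (C.rep σ).trace = α + (C.rep σ).det * u ∧
        ∀ τ ∈ P.inertiaSubgroupIn ℚ, (C.rep τ).trace = 1 + (C.rep τ).det ∧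
          (C.rep τ - (C.rep τ).det • 1) * (C.rep σ - α • 1) = 0 ∧
          ∀ τ' ∈ P.inertiaSubgroupIn ℚ,
            (C.rep τ - (C.rep τ).det • 1) * (C.rep τ' - 1) = 0 := by
  set a := C.θ (HeckeDuality.heckeOp L 2 2 Nat.prime_two) with hadef
  obtain ⟨α, u, α', hu, hroot, hsum, hprod, hα'⟩ := C.exists_unit_root ha
  refine ⟨α, u, hu, hroot, fun P hP σ hσ => ?_⟩
  have hII : ∀ τ ∈ P.inertiaSubgroupIn ℚ, ∀ τ' ∈ P.inertiaSubgroupIn ℚ,
      (C.rep τ - (C.rep τ).det • 1) * (C.rep τ' - 1) = 0 := fun τ hτ τ' hτ' => by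
    have h := C.inertia_sub_mul_eq_zero hP hL (hunip P hP) hτ (f := C.act τ' - 1)
      fun v => C.isConn_inertia_sub hP hL hτ' v
    rwa [map_sub C.toMat, map_one, ← rep_apply] at h
  have htrI : ∀ τ ∈ P.inertiaSubgroupIn ℚ, (C.rep τ).trace = 1 + (C.rep τ).det := by
    intro τ hτ
    have h := hII τ hτ τ hτ
    have hCH := Matrix.aeval_self_charpoly (C.rep τ)
    rw [Matrix.charpoly_fin_two] at hCH
    simp only [map_add, map_sub, map_mul, Polynomial.aeval_X, Polynomial.aeval_C,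
      Algebra.algebraMap_eq_smul_one, smul_mul_assoc, one_mul, pow_two] at hCH
    have h2 : ((C.rep τ).trace - (1 + (C.rep τ).det)) • C.rep τ = 0 := by
      rw [sub_mul, mul_sub, mul_sub, smul_mul_assoc, smul_mul_assoc, one_mul, one_mul, mul_one]
        at h
      rw [sub_smul, add_smul, one_smul, ← sub_eq_zero_of_eq (h.trans hCH.symm)]
      abel
    have h3 := congrArg Matrix.det h2
    rw [Matrix.det_smul, Fintype.card_fin, Matrix.det_zero] at h3
    have hd : (C.rep τ).det ≠ 0 := ((Matrix.isUnit_iff_isUnit_det _).mp (C.isUnit_rep τ)).ne_zero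
    exact sub_eq_zero.mp ((pow_eq_zero_iff two_ne_zero).mp ((mul_eq_zero.mp h3).resolve_right hd))
  have hbeta : IsUnit (C.rep σ - α' • 1) := by
    rw [Matrix.isUnit_iff_isUnit_det]
    by_contra h
    have h1 := (mem_maximalIdeal _).mpr h
    have hd : (C.rep σ).det ∉ maximalIdeal C.O := fun hm =>
      (mem_maximalIdeal _).mp hm ((Matrix.isUnit_iff_isUnit_det _).mp (C.isUnit_rep σ))
    refine hd ?_
    have e : (C.rep σ).det = (C.rep σ - α' • 1).det +
        α' * ((C.rep σ).trace - α') := by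
      simp only [Matrix.det_fin_two, Matrix.trace_fin_two, Matrix.sub_apply, Matrix.smul_apply,
        Matrix.one_apply_eq, Matrix.one_apply_ne (show (0 : Fin 2) ≠ 1 by decide),
        Matrix.one_apply_ne (show (1 : Fin 2) ≠ 0 by decide), smul_eq_mul, mul_one, mul_zero,
        sub_zero]
      ring
    rw [e]
    exact add_mem h1 (Ideal.mul_mem_right _ _ hα')
  have hIσ : ∀ τ ∈ P.inertiaSubgroupIn ℚ,
      (C.rep τ - (C.rep τ).det • 1) * (C.rep σ - α • 1) = 0 := by
    intro τ hτ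
    have h := C.inertia_sub_mul_eq_zero hP hL (hunip P hP) hτ
      (f := C.act σ * C.act σ - a • C.act σ + (2 : C.O) • 1)
      fun v => C.isConn_quadratic hP hL hσ v
    rw [map_add, map_sub C.toMat, map_mul, map_smul, map_smul, map_one, ← rep_apply] at h
    have e : C.rep σ * C.rep σ - a • C.rep σ + (2 : C.O) • (1 : M2 C.O) =
        (C.rep σ - α • 1) * (C.rep σ - α' • 1) := by
      rw [← hsum, ← hprod, sub_mul, mul_sub, mul_sub, smul_mul_assoc, smul_mul_assoc,
        mul_smul_comm, mul_smul_comm, one_mul, one_mul, mul_one, smul_smul, add_smul]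
      abel
    rw [e, ← mul_assoc] at h
    exact (hbeta.mul_left_eq_zero).mp h
  refine ⟨?_, fun τ hτ => ⟨htrI τ hτ, hIσ τ hτ, hII τ hτ⟩⟩
  obtain ⟨τ₀, hτ₀, c, hc, hc3⟩ := AtTwo.exists_inertia_moves_four hP
  have hd0 := C.det_ne_one_of_moves_four hc hc3
  have hdet : (C.rep σ - α • 1).det = 0 := by
    by_contra hne
    have h := congrArg (· * (C.rep σ - α • 1).adjugate) (hIσ τ₀ hτ₀)
    simp only [mul_assoc, Matrix.mul_adjugate, zero_mul, mul_smul_comm, mul_one] at h
    have h1 := congrArg Matrix.trace ((smul_eq_zero.mp h).resolve_left hne)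
    rw [Matrix.trace_sub, Matrix.trace_smul, Matrix.trace_one, Matrix.trace_zero, htrI τ₀ hτ₀,
      Fintype.card_fin, Nat.cast_ofNat, smul_eq_mul] at h1
    exact hd0 (by linear_combination -h1)
  simp only [Matrix.det_fin_two, Matrix.sub_apply, Matrix.smul_apply, Matrix.one_apply_eq,
    Matrix.one_apply_ne (show (0 : Fin 2) ≠ 1 by decide),
    Matrix.one_apply_ne (show (1 : Fin 2) ≠ 0 by decide), smul_eq_mul, mul_one, mul_zero,
    sub_zero] at hdet
  rw [Matrix.trace_fin_two, Matrix.det_fin_two]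
  linear_combination (-u) * hdet + (α - C.rep σ 0 0 - C.rep σ 1 1) * hu

/-- The coefficient at `2` is a unit. -/
theorem isUnit_heckeTwo
    (ha2 : ∀ y : Forms.ZBar, (y : ℂ) = ModularFormClass.qCoeff g 2 → y ∉ 𝔪) :
    IsUnit (C.θ (HeckeDuality.heckeOp L 2 2 Nat.prime_two)) := by
  by_contra h
  have h1 : ConductorLevel.eigenChar hg ∅ (HeckeDuality.heckeOp L 2 2 Nat.prime_two) =
      ModularFormClass.qCoeff g 2 := by
    show ModularFormClass.qCoeff ((HeckeDuality.heckeOp L 2 2 Nat.prime_two).1 g) 1 = _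
    rw [ConductorLevel.heckeOp_eigen hg Nat.prime_two, HeckeDuality.coeff_smul, hg.qCoeff_one,
      mul_one]
  exact ha2 ⟨_, eigenChar_mem_zBar hg _⟩ h1
    ((C.θ_mem _ ⟨_, eigenChar_mem_zBar hg _⟩ rfl).mp ((mem_maximalIdeal _).mpr h))

end Coeffs

end Fermat.Agent.TwoAdic.NewformRep2

end
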