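import Fermat.Agent.TwoAdic.NewformRep.Points
import Fermat.Agent.GaloisReps.Flat
import Fermat.Agent.FiniteFlat.TorsionOrder

/-!
# Galois orders on the levels of the two-adic representation of a newform of odd level

Every level embeds in a power of the corresponding level of the model of `J₀(L)`.
-/

set_option autoImplicit false
set_option linter.style.haveILetI false
set_option synthInstance.maxHeartbeats 400000

noncomputable section

open CongruenceSubgroup

namespace Fermat.Agent.TwoAdic.NewformRep2

open Arith (QBar GQ)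
open GaloisReps (heckeGaloisModel ModelLevel)
open FiniteFlat (GalOrder)

/-- The levels of the model of `J₀(L)` at `2` have Galois orders for odd `L`. -/
theorem nonempty_galOrder_level (L : ℕ) [NeZero L] (hL : ¬ 2 ∣ L) (k : ℕ) :
    Nonempty (GalOrder 2 (ModelLevel (heckeGaloisModel L 2) k)) := by
  obtain ⟨O'⟩ := FiniteFlat.nonempty_galOrder_jTorsBy (N := L) Nat.prime_two hL
    (c := ((2 ^ k : ℕ) : ℤ)) (Int.natCast_ne_zero.mpr (pow_ne_zero k two_ne_zero))
  exact GaloisReps.nonempty_galOrder_modelLevel (X := FiniteFlat.JTorsBy L ((2 ^ k : ℕ) : ℤ))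
    (GaloisReps.torsionIso L 2 (GaloisReps.conjProperty L))
    (GaloisReps.torsionGalois L 2 (GaloisReps.congruenceProperty L 2)) k
    { toFun := fun x => ⟨(x : ModularCurve.JZero L), x.2⟩
      map_zero' := rfl
      map_add' := fun _ _ => rfl }
    (fun x y h => Subtype.ext (congrArg Subtype.val h :)) (fun σ x => rfl) O'

namespace Coeffs

variable {L : ℕ} [NeZero L] {g : CuspForm (Gamma0 L) 2} {hg : g.IsNormalizedEigenform}
  {𝔪 : Ideal Forms.ZBar} (C : Coeffs hg 𝔪)

/-- The coordinates at level `k` of the vector with given coordinates on the eigen-lattice. -/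
def levelMap (k : ℕ) : (Fin 2 → C.O) →+ (Fin C.rk → ModelLevel (heckeGaloisModel L 2) k) :=
  AddMonoidHom.mk' (fun x i => (fun j =>
      PadicInt.toZModPow k (C.co i ((C.basis.equivFun.symm x).1 j)) :
      ModelLevel (heckeGaloisModel L 2) k))
    fun x y => funext fun i => funext fun j => by
      show PadicInt.toZModPow k (C.co i ((C.basis.equivFun.symm (x + y)).1 j)) = _
      rw [map_add, Submodule.coe_add, Pi.add_apply, map_add, map_add]
      rfl

theorem levelMap_mulVec (k : ℕ) (σ : GQ) (x : Fin 2 → C.O) :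
    C.levelMap k ((C.rep σ).mulVec x) = σ • C.levelMap k x := by
  funext i
  funext j
  have e : C.basis.equivFun.symm ((C.rep σ).mulVec x) = C.act σ (C.basis.equivFun.symm x) := by
    refine C.basis.equivFun.injective ?_
    rw [LinearEquiv.apply_symm_apply]
    show _ = ⇑(C.basis.repr (C.act σ (C.basis.equivFun.symm x)))
    rw [← LinearMap.toMatrix_mulVec_repr C.basis C.basis (C.act σ)]
    congr 1
    exact (C.basis.equivFun.apply_symm_apply x).symm
  show PadicInt.toZModPow k (C.co i ((C.basis.equivFun.symm ((C.rep σ).mulVec x)).1 j)) =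
    ((GaloisReps.galLevel (heckeGaloisModel L 2) k σ).mulVec fun l =>
      PadicInt.toZModPow k (C.co i ((C.basis.equivFun.symm x).1 l))) j
  rw [e]
  refine Eq.trans ?_ (congrFun (map_toZModPow_mulVec k ((heckeGaloisModel L 2).gal σ)
    fun l => C.co i ((C.basis.equivFun.symm x).1 l)) j)
  refine congrArg _ ((congrArg (C.co i) ?_).trans
    (congrFun (C.co_mulVec i ((heckeGaloisModel L 2).gal σ) (C.basis.equivFun.symm x).1) j))
  exact congrFun ((heckeGaloisModel L 2).coe_eigenAction C.ι C.θ σ _) j

theorem levelMap_eq_zero_iff (k : ℕ) (x : Fin 2 → C.O) :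
    C.levelMap k x = 0 ↔ ∀ a, x a ∈ Ideal.span {(2 : C.O) ^ k} := by
  constructor
  · intro h
    set v := C.basis.equivFun.symm x with hv
    have hdiv : ∀ j, (2 : C.O) ^ k ∣ v.1 j := fun j =>
      C.dvd_of_co fun i => congrFun (congrFun h i) j
    choose w hw using hdiv
    have hvw : v.1 = (2 : C.O) ^ k • w := funext hw
    have hwmem : w ∈ C.Lat := by
      refine (GaloisReps.mem_eigenspace _ _ _).mpr fun t => ?_
      refine smul_right_injective _ (pow_ne_zero k (two_ne_zero (α := C.O))) ?_
      show (2 : C.O) ^ k • _ = (2 : C.O) ^ k • _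
      rw [← Matrix.mulVec_smul, smul_comm, ← hvw]
      exact (GaloisReps.mem_eigenspace _ _ _).mp v.2 t
    intro a
    have hx : x = (2 : C.O) ^ k • C.basis.equivFun ⟨w, hwmem⟩ := by
      rw [← map_smul, ← C.basis.equivFun.symm_apply_eq]
      exact Subtype.ext hvw
    rw [Ideal.mem_span_singleton, hx, Pi.smul_apply, smul_eq_mul]
    exact dvd_mul_right _ _
  · intro h
    choose y hy using fun a => Ideal.mem_span_singleton.mp (h a)
    have hx : x = (2 : C.O) ^ k • y := funext hy
    funext i
    funext j
    show PadicInt.toZModPow k (C.co i ((C.basis.equivFun.symm x).1 j)) = 0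
    rw [hx, map_smul, SetLike.val_smul, Pi.smul_apply, smul_eq_mul,
      show (2 : C.O) ^ k = C.ι ((2 : ℤ_[2]) ^ k) by rw [map_pow, map_ofNat], C.co_ι_mul, map_mul,
      map_pow, map_ofNat]
    have h2 : (2 : ZMod (2 ^ k)) ^ k = 0 := by
      have := ZMod.natCast_self (2 ^ k)
      push_cast at this
      exact this
    rw [h2, zero_mul]

/-- The levels of the representation have Galois orders. -/
theorem flat (hL : ¬ 2 ∣ L) (k : ℕ) :
    Nonempty (GalOrder 2 (MatMod (modIdeal C.rep (Ideal.span {(2 : C.O) ^ k})))) := by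
  classical
  set I := Ideal.span {(2 : C.O) ^ k} with hI
  obtain ⟨O'⟩ := nonempty_galOrder_level L hL k
  obtain ⟨P⟩ := GaloisReps.nonempty_galOrder_pi O' (Fin C.rk)
  let lift : (Fin 2 → C.O ⧸ I) → (Fin 2 → C.O) := fun w a =>
    (Ideal.Quotient.mk_surjective (w a)).choose
  have hlift : ∀ w a, Ideal.Quotient.mk I (lift w a) = w a := fun w a =>
    (Ideal.Quotient.mk_surjective (w a)).choose_spec
  have hcongr : ∀ x y : Fin 2 → C.O, (∀ a, Ideal.Quotient.mk I (x a) = Ideal.Quotient.mk I (y a)) ↔
      C.levelMap k x = C.levelMap k y := fun x y => by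
    rw [← sub_eq_zero (a := C.levelMap k x), ← map_sub, C.levelMap_eq_zero_iff]
    simp only [Pi.sub_apply, Ideal.Quotient.eq, hI]
  let i : MatMod (modIdeal C.rep I) →+ (Fin C.rk → ModelLevel (heckeGaloisModel L 2) k) :=
    AddMonoidHom.mk' (fun w => C.levelMap k (lift w)) fun w w' => by
      rw [← map_add]
      refine (hcongr _ _).mp fun a => ?_
      rw [Pi.add_apply, map_add]
      exact (hlift _ a).trans (congrArg₂ (· + ·) (hlift w a) (hlift w' a)).symm
  refine ⟨P.restrict i (fun w w' h => funext fun a => ?_) fun σ w => ?_⟩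
  · rw [← hlift w a, ← hlift w' a]
    exact (hcongr _ _).mpr h a
  · show C.levelMap k (lift (σ • w)) = σ • C.levelMap k (lift w)
    rw [← levelMap_mulVec]
    refine (hcongr _ _).mp fun a => ?_
    refine (hlift _ a).trans ?_
    show ((Ideal.Quotient.mk I).mapMatrix (C.rep σ)).mulVec w a = _
    rw [RingHom.map_mulVec]
    congr 1
    funext b
    exact (hlift w b).symm

end Coeffs

end Fermat.Agent.TwoAdic.NewformRep2

end
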