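import Fermat.Agent.TwoAdic.NewformRep.Special
import Fermat.Agent.TwoAdic.NewformRep.AtTwo
import Fermat.Agent.TwoAdic.NewformRep.Flat

/-!
# Two-adic representations of newforms congruent to a curve in the class
-/

set_option autoImplicit false
set_option linter.style.haveILetI false
set_option synthInstance.maxHeartbeats 400000

noncomputable section

open CongruenceSubgroup

namespace Fermat.Agent.TwoAdic

open Arith (QBar GQ)

/-- Newforms congruent to a curve in the class and ordinary at `2` have two-adic representations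
with their local properties. -/
theorem newformRepInputTwo : NewformRepInputTwo := by
  intro L _ hsq hodd g hg 𝔪 hmax h2 ha2 W abar hW habar hcong
  obtain ⟨C⟩ := NewformRep2.nonempty_coeffs hg.1 hmax h2
  have hL : ¬ 2 ∣ L := fun h => by
    obtain ⟨k, rfl⟩ := hodd
    omega
  have hnq : ∀ q : ℕ, q.Prime → q ∣ L → q ≠ 2 ∧ ¬ q ^ 2 ∣ L := fun q hq hqL =>
    ⟨fun h => hL (h ▸ hqL), fun h => hq.ne_one (Nat.isUnit_iff.mp (hsq q (by rwa [← pow_two])))⟩
  refine ⟨{
    O := C.O
    two_mem := C.two_mem
    coeff := C.coeff
    coeff_injective := C.coeff_injective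
    coeff_compat := C.coeff_compat
    coeff_place := C.coeff_place
    r := C.rep
    finiteLevel := C.finiteLevel_rep
    det := C.det_congr_cyclotomic
    frobenius := fun ℓ hℓ hℓL P hP σ hσ => ?_
    unramified := fun ℓ hℓ hℓL P hP τ hτ => C.unramified_rep hℓ hℓL hP hτ
    special := fun q hq hqL => C.special hg hq hqL (hnq q hq hqL).1 (hnq q hq hqL).2
    two := ?_
    flat := C.flat hL }⟩
  · rw [C.coeff_prime hℓ]
    exact C.frobenius_rep hℓ hℓL hP hσ
  · rw [C.coeff_prime Nat.prime_two]
    exact C.two_of_unipotent hL (C.isUnit_heckeTwo ha2) fun A hA τ hτ k =>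
      C.exists_pow_rep_inertia_two hW habar hcong hA hτ k

end Fermat.Agent.TwoAdic

end
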