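import Fermat.Agent.TwoAdic.NewformRep.Coeff
import Fermat.Agent.TwoAdic.Galois.Interface
import Fermat.Agent.NewformLocal.Det
import Fermat.Agent.GaloisReps.Models

/-!
# The two-adic representation on the eigen-lattice of a newform

Its matrices, finite levels, determinant, and Frobenius traces at good primes.
-/

set_option autoImplicit false

noncomputable section

open CongruenceSubgroup

namespace Fermat.Agent.TwoAdic.NewformRep2

open Arith (QBar GQ)
open GaloisReps (heckeGaloisModel FullHecke)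

variable {L : ℕ} [NeZero L] {g : CuspForm (Gamma0 L) 2} {hg : g.IsNormalizedEigenform}
  {𝔪 : Ideal Forms.ZBar}

namespace Coeffs

variable (C : Coeffs hg 𝔪)

theorem natTwo_mem : ((2 : ℕ) : C.O) ∈ IsLocalRing.maximalIdeal C.O := by
  exact_mod_cast C.two_mem

/-- The eigen-lattice. -/
abbrev Lat : Submodule C.O (Fin (heckeGaloisModel L 2).d → C.O) :=
  GaloisReps.eigenspace (heckeGaloisModel L 2).hecke C.θ

/-- Galois on the eigen-lattice. -/
def act : GQ →* Module.End C.O C.Lat := (heckeGaloisModel L 2).eigenAction C.ι C.θ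

/-- The basis of the eigen-lattice. -/
def basis : Module.Basis (Fin 2) C.O C.Lat := (heckeGaloisModel L 2).eigenBasis C.θ

/-- Endomorphisms of the eigen-lattice as matrices. -/
def toMat : Module.End C.O C.Lat ≃ₐ[C.O] M2 C.O := LinearMap.toMatrixAlgEquiv C.basis

/-- The representation. -/
def rep : GQ →* M2 C.O := C.toMat.toMonoidHom.comp C.act

theorem rep_apply (σ : GQ) : C.rep σ = C.toMat (C.act σ) := rfl

theorem det_rep (σ : GQ) : (C.rep σ).det = LinearMap.det (C.act σ) := by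
  rw [rep_apply, ← LinearMap.det_toMatrix C.basis]
  rfl

theorem trace_rep (σ : GQ) : (C.rep σ).trace = LinearMap.trace C.O C.Lat (C.act σ) := by
  rw [rep_apply, LinearMap.trace_eq_matrix_trace C.O C.basis]
  rfl

/-- The matrix identity `toMat f = 0` from vanishing on the lattice. -/
theorem toMat_eq_zero {f : Module.End C.O C.Lat} (h : ∀ v, f v = 0) : C.toMat f = 0 := by
  rw [show f = 0 from LinearMap.ext h, map_zero]

theorem det_congr_cyclotomic (k : ℕ) (σ : GQ) (c : ℕ)
    (hc : ∀ ζ : QBar, ζ ^ 2 ^ k = 1 → σ ζ = ζ ^ c) :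
    (C.rep σ).det - (c : C.O) ∈ Ideal.span {(2 : C.O) ^ k} := by
  rw [det_rep, Ideal.mem_span_singleton]
  exact_mod_cast (heckeGaloisModel L 2).det_eigenAction_congr C.ι C.θ C.natTwo_mem hc

theorem modIdeal_rep_eq_one {k : ℕ} {σ : GQ}
    (h : ((heckeGaloisModel L 2).gal σ).map (PadicInt.toZModPow k) = 1) :
    modIdeal C.rep (Ideal.span {(2 : C.O) ^ k}) σ = 1 := by
  have key := fun i j => (heckeGaloisModel L 2).eigenMatrix_congr C.ι C.θ (g := 1) (h := σ)
    (n := k) (by rwa [inv_one, one_mul]) i j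
  ext i j
  show Ideal.Quotient.mk _ (C.rep σ i j) = _
  have h1 : C.rep σ i j - (1 : M2 C.O) i j ∈ Ideal.span {(2 : C.O) ^ k} := by
    rw [Ideal.mem_span_singleton]
    have := key i j
    rw [Nat.cast_ofNat, show (heckeGaloisModel L 2).eigenMatrix C.ι C.θ 1 = C.rep 1 from rfl,
      map_one] at this
    exact this
  rw [Ideal.Quotient.eq.mpr h1]
  rcases eq_or_ne i j with rfl | hij
  · rw [Matrix.one_apply_eq, Matrix.one_apply_eq, map_one]
  · rw [Matrix.one_apply_ne hij, Matrix.one_apply_ne hij, map_zero]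

theorem finiteLevel_rep (k : ℕ) : IsFiniteLevel (modIdeal C.rep (Ideal.span {(2 : C.O) ^ k})) := by
  obtain ⟨F, hF, h⟩ := (heckeGaloisModel L 2).gal_continuous k
  exact ⟨F, hF, fun σ hσ => C.modIdeal_rep_eq_one (h σ hσ)⟩

theorem unramified_rep {ℓ : ℕ} (hℓ : ℓ.Prime) (h : ¬ ℓ ∣ 2 * L) {P : ValuationSubring QBar}
    (hP : P.LiesOverPrime ℓ) {τ : GQ} (hτ : τ ∈ P.inertiaSubgroupIn ℚ) : C.rep τ = 1 := by
  have h1 : C.act τ = 1 := by
    refine LinearMap.ext fun v => Subtype.ext ?_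
    show (((heckeGaloisModel L 2).eigenAction C.ι C.θ τ v : C.Lat) :
      Fin (heckeGaloisModel L 2).d → C.O) = _
    rw [GaloisReps.HeckeGaloisModel.coe_eigenAction,
      (heckeGaloisModel L 2).gal_unramified ℓ hℓ (by rwa [mul_comm]) P hP τ hτ,
      Matrix.map_one C.ι (map_zero C.ι) (map_one C.ι), Matrix.one_mulVec]
    rfl
  rw [rep_apply, h1, map_one]

theorem frobenius_rep {ℓ : ℕ} (hℓ : ℓ.Prime) (h : ¬ ℓ ∣ 2 * L) {P : ValuationSubring QBar}
    (hP : P.LiesOverPrime ℓ) {σ : GQ} (hσ : P.IsFrobeniusAt σ ℓ) :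
    (C.rep σ).trace = C.θ (HeckeDuality.heckeOp L 2 ℓ hℓ) ∧ (C.rep σ).det = (ℓ : C.O) := by
  have hch : LinearMap.charpoly (C.act σ) = _ :=
    (heckeGaloisModel L 2).charpoly_eigenAction_frobenius C.ι C.θ GaloisReps.frobeniusDensity
      C.natTwo_mem hℓ (by rwa [mul_comm] : ¬ ℓ ∣ L * 2) hP hσ
  rw [← LinearMap.charpoly_toMatrix (C.act σ) C.basis] at hch
  have e : LinearMap.toMatrix C.basis C.basis (C.act σ) = C.rep σ := rfl
  rw [e, Matrix.charpoly_fin_two] at hch
  have h0 := congrArg (fun f => Polynomial.coeff f 0) hch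
  have h1 := congrArg (fun f => Polynomial.coeff f 1) hch
  simp [Polynomial.coeff_X_pow] at h0 h1
  exact ⟨h1, h0⟩

end Coeffs

end Fermat.Agent.TwoAdic.NewformRep2

end
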