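import Fermat.Agent.TwoAdic.Forms.Iface
import Fermat.Agent.GaloisReps.Attach
import Fermat.Agent.ConductorLevel.Eigen
import Mathlib.NumberTheory.NumberField.Basic
import Mathlib.RingTheory.DedekindDomain.Dvr

/-!
# The coefficient ring of a newform at a prime over `2`

A complete discrete valuation ring with finite residue field receiving the coefficients of a
normalised eigenform injectively, compatibly with a maximal ideal of the algebraic integers over
`2`, and the character of the Hecke algebra with values there.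
-/

set_option autoImplicit false
set_option linter.style.haveILetI false

noncomputable section

open CongruenceSubgroup ModularFormClass

namespace Fermat.Agent.TwoAdic.NewformRep2

open GaloisReps (FullHecke)

/-- A character to a field of characteristic `p` of a domain finite and free over `ℤ` has an
injective lift to a complete discrete valuation ring with finite residue field, with the same
kernel after reduction. -/
theorem exists_finite_lift {p : ℕ} [Fact p.Prime] {A : Type} [CommRing A] [IsDomain A] [CharZero A]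
    [Module.Finite ℤ A] [IsAddTorsionFree A] {F : Type} [Field F] [IsAlgClosed F] [CharP F p]
    (φ : A →+* F) :
    ∃ (O : Type) (_ : CommRing O) (_ : IsDomain O) (_ : IsDiscreteValuationRing O)
      (_ : IsAdicComplete (IsLocalRing.maximalIdeal O) O)
      (_ : Finite (IsLocalRing.ResidueField O)) (_ : CharZero O),
      (p : O) ∈ IsLocalRing.maximalIdeal O ∧
      ∃ (ι : ℤ_[p] →+* O) (θ : A →+* O), ι.Finite ∧ Function.Injective θ ∧
        ∀ a, θ a ∈ IsLocalRing.maximalIdeal O ↔ φ a = 0 := by
  classical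
  obtain ⟨O₁, i1, i2, i3, i4, i5, hp₁, θ₁, ψ, hψ⟩ := GaloisReps.exists_lift_char φ
  obtain ⟨ι⟩ := GaloisReps.exists_padicHom O₁ hp₁
  letI : Algebra ℤ_[p] O₁ := ι.toAlgebra
  let B : Subalgebra ℤ_[p] O₁ := Algebra.adjoin ℤ_[p] (Set.range θ₁)
  have hfinB : Module.Finite ℤ_[p] B := by
    obtain ⟨r, t, ht⟩ := Submodule.fg_iff_exists_fin_generating_family.mp
      (Module.Finite.fg_top (R := ℤ) (M := A))
    have hBt : B = Algebra.adjoin ℤ_[p] (Set.range fun i => θ₁ (t i)) := by
      refine le_antisymm (Algebra.adjoin_le ?_) (Algebra.adjoin_mono ?_)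
      · rintro _ ⟨a, rfl⟩
        have ha : a ∈ Submodule.span ℤ (Set.range t) := ht ▸ Submodule.mem_top
        induction ha using Submodule.span_induction with
        | mem x hx => obtain ⟨i, rfl⟩ := hx; exact Algebra.subset_adjoin ⟨i, rfl⟩
        | zero => rw [map_zero]; exact zero_mem _
        | add x y _ _ hx hy => rw [map_add]; exact add_mem hx hy
        | smul c x _ hx => rw [map_zsmul]; exact zsmul_mem hx c
      · rintro _ ⟨i, rfl⟩; exact ⟨t i, rfl⟩
    rw [hBt]
    refine Module.Finite.iff_fg.mpr (fg_adjoin_of_finite (Set.finite_range _) ?_)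
    rintro _ ⟨i, rfl⟩
    exact IsIntegral.tower_top (R := ℤ) ((Algebra.IsIntegral.isIntegral (t i)).map θ₁.toIntAlgHom)
  have hιinj : Function.Injective (algebraMap ℤ_[p] B) := by
    refine (injective_iff_map_eq_zero _).mpr fun a ha => ?_
    by_contra h0
    have h : algebraMap ℤ_[p] O₁ a = 0 := congrArg Subtype.val ha
    rw [PadicInt.unitCoeff_spec h0, map_mul, map_pow, map_natCast] at h
    rcases mul_eq_zero.mp h with h | h
    · exact ((PadicInt.unitCoeff h0).isUnit.map (algebraMap ℤ_[p] O₁)).ne_zero h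
    · exact pow_ne_zero _ (Nat.cast_ne_zero.mpr (Fact.out : p.Prime).ne_zero) h
  have : Module.IsTorsionFree ℤ_[p] B := Module.isTorsionFree_iff_algebraMap_injective.mpr hιinj
  have : Finite (IsLocalRing.ResidueField ℤ_[p]) :=
    Finite.of_equiv _ (PadicInt.residueField (p := p)).symm.toEquiv
  have : IsLocalRing B := GaloisReps.isLocalRing_of_finite_domain ℤ_[p] B
  have hinjK : Function.Injective
      (algebraMap ℤ_[p] (AlgebraicClosure (FractionRing ℤ_[p]))) := by
    rw [IsScalarTower.algebraMap_eq ℤ_[p] (FractionRing ℤ_[p]), RingHom.coe_comp]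
    exact (algebraMap (FractionRing ℤ_[p]) _).injective.comp (IsFractionRing.injective ℤ_[p] _)
  have : Module.IsTorsionFree ℤ_[p] (AlgebraicClosure (FractionRing ℤ_[p])) :=
    Module.isTorsionFree_iff_algebraMap_injective.mpr hinjK
  have : Algebra.IsAlgebraic ℤ_[p] B := Algebra.IsIntegral.isAlgebraic
  let jB : B →ₐ[ℤ_[p]] AlgebraicClosure (FractionRing ℤ_[p]) :=
    IsAlgClosed.lift (R := ℤ_[p]) (S := B) (M := AlgebraicClosure (FractionRing ℤ_[p]))
  let θB : A →+* B := θ₁.codRestrict B fun a => Algebra.subset_adjoin (Set.mem_range_self a)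
  obtain ⟨O, j1, j2, j3, j4, j5, j6, j7, j8, j9, j, θ, hinj, hjinj, hcomm, hθ⟩ :=
    GaloisReps.exists_coeffExt ℤ_[p] ((jB : B →+* _).comp θB)
  have hrange : ∀ b : B, ∃ o : O, j o = jB b := by
    rintro ⟨b, hb⟩
    induction hb using Algebra.adjoin_induction with
    | mem x hx =>
      obtain ⟨a, rfl⟩ := hx
      exact ⟨θ a, by rw [← RingHom.comp_apply j θ, hθ]; rfl⟩
    | algebraMap c =>
      exact ⟨algebraMap ℤ_[p] O c, by
        rw [← RingHom.comp_apply j, hcomm]; exact (jB.commutes c).symm⟩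
    | add x y hx hy ihx ihy =>
      obtain ⟨u, hu⟩ := ihx; obtain ⟨v, hv⟩ := ihy
      exact ⟨u + v, by rw [map_add, hu, hv, ← map_add]; rfl⟩
    | mul x y hx hy ihx ihy =>
      obtain ⟨u, hu⟩ := ihx; obtain ⟨v, hv⟩ := ihy
      exact ⟨u * v, by rw [map_mul, hu, hv, ← map_mul]; rfl⟩
  choose toO htoO using hrange
  let β : B →+* O :=
    { toFun := toO
      map_one' := hjinj (by rw [htoO, map_one, map_one])
      map_mul' := fun a b => hjinj (by rw [htoO, map_mul, map_mul, htoO, htoO])
      map_zero' := hjinj (by rw [htoO, map_zero, map_zero])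
      map_add' := fun a b => hjinj (by rw [htoO, map_add, map_add, htoO, htoO]) }
  have hpO : (p : O) ∈ IsLocalRing.maximalIdeal O := by
    rw [← map_natCast (algebraMap ℤ_[p] O) p]
    exact map_nonunit (algebraMap ℤ_[p] O) _ (by
      rw [PadicInt.maximalIdeal_eq_span_p]; exact Ideal.mem_span_singleton_self _)
  -- both maps of the local ring pull the maximal ideal back to the maximal ideal
  have hlocal : ∀ (R : Type) [CommRing R] [IsLocalRing R] (f : B →+* R),
      (p : R) ∈ IsLocalRing.maximalIdeal R →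
        (IsLocalRing.maximalIdeal R).comap f = IsLocalRing.maximalIdeal B := by
    intro R _ _ f hpR
    have hP : ((IsLocalRing.maximalIdeal R).comap f).IsPrime := Ideal.IsPrime.comap _
    refine IsLocalRing.eq_maximalIdeal (Ideal.isMaximal_of_isIntegral_of_isMaximal_comap
      (R := ℤ_[p]) _ ?_)
    have hle : IsLocalRing.maximalIdeal ℤ_[p] ≤
        ((IsLocalRing.maximalIdeal R).comap f).comap (algebraMap ℤ_[p] B) := by
      rw [PadicInt.maximalIdeal_eq_span_p, Ideal.span_le, Set.singleton_subset_iff,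
        SetLike.mem_coe, Ideal.mem_comap, Ideal.mem_comap, map_natCast, map_natCast]
      exact hpR
    rw [← (IsLocalRing.maximalIdeal.isMaximal ℤ_[p]).eq_of_le
      (Ideal.IsPrime.comap _).ne_top hle]
    exact IsLocalRing.maximalIdeal.isMaximal _
  have hA : θ = β.comp θB := RingHom.ext fun a => hjinj (by
    rw [← RingHom.comp_apply j θ, hθ]
    exact (htoO (θB a)).symm)
  have hiff : ∀ a, θ a ∈ IsLocalRing.maximalIdeal O ↔ φ a = 0 := fun a => by
    have h1 : θB a ∈ (IsLocalRing.maximalIdeal O).comap β ↔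
        θB a ∈ (IsLocalRing.maximalIdeal O₁).comap B.val.toRingHom := by
      rw [hlocal O β hpO, hlocal O₁ B.val.toRingHom hp₁]
    rw [Ideal.mem_comap, Ideal.mem_comap] at h1
    rw [hA, RingHom.comp_apply, h1, ← hψ]
    show θ₁ a ∈ IsLocalRing.maximalIdeal O₁ ↔ ψ (IsLocalRing.residue O₁ (θ₁ a)) = 0
    rw [map_eq_zero, IsLocalRing.residue_eq_zero_iff]
  refine ⟨O, j1, j2, j3, j4, j5, j6, hpO, algebraMap ℤ_[p] O, θ,
    RingHom.finite_algebraMap.mpr j8, ?_, hiff⟩
  have hker : (RingHom.ker θ).IsPrime := RingHom.ker_isPrime θ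
  rw [RingHom.injective_iff_ker_eq_bot]
  refine Ideal.eq_bot_of_comap_eq_bot (R := ℤ) (eq_bot_iff.mpr fun n hn => ?_)
  rw [Ideal.mem_comap, RingHom.mem_ker, eq_intCast, map_intCast, Int.cast_eq_zero] at hn
  exact hn

/-- The two-adic coefficients of an eigenform at an ideal of the algebraic integers. -/
structure Coeffs {L : ℕ} [NeZero L] {g : CuspForm (Gamma0 L) 2} (hg : g.IsNormalizedEigenform)
    (𝔪 : Ideal Forms.ZBar) where
  O : Type
  [commRing : CommRing O]
  [isDomain : IsDomain O]
  [isDVR : IsDiscreteValuationRing O]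
  [isComplete : IsAdicComplete (IsLocalRing.maximalIdeal O) O]
  [finiteResidue : Finite (IsLocalRing.ResidueField O)]
  [charZero : CharZero O]
  two_mem : (2 : O) ∈ IsLocalRing.maximalIdeal O
  /-- The structure map. -/
  ι : ℤ_[2] →+* O
  ι_finite : ι.Finite
  /-- The character of the Hecke algebra. -/
  θ : FullHecke L →+* O
  θ_eq_zero : ∀ t, θ t = 0 ↔ ConductorLevel.eigenChar hg ∅ t = 0
  θ_mem : ∀ (t : FullHecke L) (y : Forms.ZBar), ConductorLevel.eigenChar hg ∅ t = (y : ℂ) →
    (θ t ∈ IsLocalRing.maximalIdeal O ↔ y ∈ 𝔪)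
  place : ∀ a b : FullHecke L, θ b ∣ θ a ↔ ∃ s t : Forms.ZBar, s ∉ 𝔪 ∧
    (s : ℂ) * ConductorLevel.eigenChar hg ∅ a = (t : ℂ) * ConductorLevel.eigenChar hg ∅ b

attribute [instance] Coeffs.commRing Coeffs.isDomain Coeffs.isDVR Coeffs.isComplete
  Coeffs.finiteResidue Coeffs.charZero

variable {L : ℕ} [NeZero L] {g : CuspForm (Gamma0 L) 2} (hg : g.IsNormalizedEigenform)
  {𝔪 : Ideal Forms.ZBar}

theorem eigenChar_mem_zBar (t : FullHecke L) :
    ConductorLevel.eigenChar hg (∅ : Set ℕ) t ∈ integralClosure ℤ ℂ :=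
  ConductorLevel.eigenChar_range_le hg (integralClosure ℤ ℂ)
    (fun _ hℓ _ => ConductorLevel.isIntegral_qCoeff hg hℓ) ⟨t, rfl⟩

/-- In a Dedekind domain one of two elements divides the other outside a prime. -/
theorem dvd_or_dvd_outside {A : Type} [CommRing A] [IsDedekindDomain A] (P : Ideal A)
    [hP : P.IsPrime] (x y : A) :
    ∃ s t : A, s ∉ P ∧ (s * x = t * y ∨ s * y = t * x) := by
  rcases eq_or_ne P ⊥ with rfl | hP0
  · rcases eq_or_ne y 0 with rfl | hy
    · exact ⟨1, 0, fun h => one_ne_zero (Ideal.mem_bot.mp h), Or.inr (by simp)⟩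
    · exact ⟨y, x, fun h => hy (Ideal.mem_bot.mp h), Or.inl (mul_comm y x)⟩
  have := IsLocalization.AtPrime.isDiscreteValuationRing_of_dedekind_domain A hP0
    (Localization.AtPrime P)
  have key : ∀ {u v : A}, algebraMap A (Localization.AtPrime P) v ∣ algebraMap A _ u →
      ∃ s t : A, s ∉ P ∧ s * u = t * v := by
    rintro u v ⟨c, hc⟩
    obtain ⟨⟨t, s⟩, hts⟩ := IsLocalization.surj P.primeCompl c
    refine ⟨s, t, s.2, IsLocalization.injective (Localization.AtPrime P)
      P.primeCompl_le_nonZeroDivisors ?_⟩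
    rw [map_mul, map_mul, hc, ← hts]
    ring
  rcases ValuationRing.dvd_total (algebraMap A (Localization.AtPrime P) y)
    (algebraMap A (Localization.AtPrime P) x) with h | h
  · obtain ⟨s, t, hs, e⟩ := key h; exact ⟨s, t, hs, Or.inl e⟩
  · obtain ⟨s, t, hs, e⟩ := key h; exact ⟨s, t, hs, Or.inr e⟩

theorem nonempty_coeffs (hmax : 𝔪.IsMaximal) (h2 : (2 : Forms.ZBar) ∈ 𝔪) :
    Nonempty (Coeffs hg 𝔪) := by
  classical
  have : Fact (Nat.Prime 2) := ⟨Nat.prime_two⟩
  set χ := ConductorLevel.eigenChar hg (∅ : Set ℕ) with hχ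
  let F := Forms.ZBar ⧸ 𝔪
  letI : Field F := Ideal.Quotient.field 𝔪
  have hchar : CharP F 2 := by
    refine (CharP.charP_iff_prime_eq_zero Nat.prime_two).mpr ?_
    rw [Nat.cast_ofNat, ← map_ofNat (Ideal.Quotient.mk 𝔪), Ideal.Quotient.eq_zero_iff_mem]
    exact h2
  obtain ⟨F', i1, i2, i3, φ₀, j, hj⟩ :=
    GaloisReps.exists_algClosed_factor Nat.prime_two (Ideal.Quotient.mk 𝔪)
  -- the field of coefficients and its ring of integers
  have : Module.Finite ℤ (FullHecke L) := IntegralStructure.heckeAlgebra_finite L 2 ∅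
  obtain ⟨r, t, ht⟩ := Submodule.fg_iff_exists_fin_generating_family.mp
    (Module.Finite.fg_top (R := ℤ) (M := FullHecke L))
  let K : IntermediateField ℚ ℂ := IntermediateField.adjoin ℚ (Set.range fun i => χ (t i))
  have : FiniteDimensional ℚ K := IntermediateField.finiteDimensional_adjoin fun x hx => by
    obtain ⟨i, rfl⟩ := hx
    exact (show IsIntegral ℤ (χ (t i)) from eigenChar_mem_zBar hg (t i)).tower_top
  have : NumberField K := { to_finiteDimensional := inferInstance }
  have hmemK : ∀ a, χ a ∈ K := by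
    intro a
    have ha : a ∈ Submodule.span ℤ (Set.range t) := ht ▸ Submodule.mem_top
    induction ha using Submodule.span_induction with
    | mem x hx => obtain ⟨i, rfl⟩ := hx; exact IntermediateField.subset_adjoin _ _ ⟨i, rfl⟩
    | zero => rw [map_zero]; exact zero_mem K
    | add x y _ _ hx hy => rw [map_add]; exact add_mem hx hy
    | smul c x _ hx => rw [map_zsmul]; exact zsmul_mem hx c
  let χK : FullHecke L →+* NumberField.RingOfIntegers K :=
    (χ.codRestrict K hmemK).codRestrict (integralClosure ℤ K) fun a =>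
      (isIntegral_algebraMap_iff (algebraMap K ℂ).injective).mp (eigenChar_mem_zBar hg a)
  let emb : NumberField.RingOfIntegers K →+* Forms.ZBar :=
    ((K.val.toRingHom).comp (algebraMap (NumberField.RingOfIntegers K) K)).codRestrict
      (integralClosure ℤ ℂ) fun a =>
        (NumberField.RingOfIntegers.isIntegral_coe a).map (K.val.restrictScalars ℤ)
  have hemb : ∀ a, (emb (χK a) : ℂ) = χ a := fun a => rfl
  have hemb_inj : Function.Injective emb := fun a b h =>
    NumberField.RingOfIntegers.ext (Subtype.ext (congrArg (fun z : Forms.ZBar => (z : ℂ)) h))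
  obtain ⟨O, o1, o2, o3, o4, o5, o6, hp, ι, θA, hfin, hinj, hiff⟩ :=
    exists_finite_lift (p := 2) (φ₀.comp emb)
  have hiff' : ∀ a, θA a ∈ IsLocalRing.maximalIdeal O ↔ emb a ∈ 𝔪 := fun a => by
    rw [hiff, ← Ideal.Quotient.eq_zero_iff_mem, ← RingHom.congr_fun hj (emb a),
      RingHom.comp_apply, RingHom.comp_apply]
    exact (map_eq_zero j).symm
  have hunit : ∀ a, emb a ∉ 𝔪 → IsUnit (θA a) := fun a ha => by
    by_contra h
    exact ha ((hiff' a).mp ((IsLocalRing.mem_maximalIdeal _).mpr h))
  refine ⟨{ O := O, two_mem := (by exact_mod_cast hp), ι := ι, ι_finite := hfin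
            θ := θA.comp χK, θ_eq_zero := fun a => ?_, θ_mem := fun a y hy => ?_
            place := fun a b => ?_ }⟩
  · rw [RingHom.comp_apply, map_eq_zero_iff θA hinj]
    constructor
    · intro h
      rw [← hχ, ← hemb, h, map_zero]
      rfl
    · intro h
      exact hemb_inj (Subtype.ext (by rw [hemb, map_zero]; exact h))
  · rw [RingHom.comp_apply, hiff', show emb (χK a) = y from Subtype.ext ((hemb a).trans hy)]
  · rw [RingHom.comp_apply, RingHom.comp_apply, ← hχ, ← hemb, ← hemb]
    have hcast : ∀ {u v : Forms.ZBar}, (u : ℂ) = (v : ℂ) → u = v := fun h => Subtype.ext h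
    obtain ⟨s, u, hs, h⟩ := dvd_or_dvd_outside (𝔪.comap emb) (χK a) (χK b)
    have hsu := hunit s hs
    rcases h with h | h
    · refine iff_of_true ?_ ⟨emb s, emb u, hs, ?_⟩
      · have e := congrArg θA h
        rw [map_mul, map_mul] at e
        exact hsu.dvd_mul_left.mp (e ▸ dvd_mul_left _ _)
      · exact_mod_cast (by rw [← map_mul, ← map_mul, h] :
          emb s * emb (χK a) = emb u * emb (χK b))
    · by_cases hu : emb u ∈ 𝔪
      · constructor
        · intro hdvd
          have e := congrArg θA h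
          rw [map_mul, map_mul] at e
          obtain ⟨c, hc⟩ := hdvd
          rw [hc, mul_left_comm (θA u)] at e
          have hb : θA (χK b) = 0 := by
            by_contra hb
            rw [mul_comm (θA s)] at e
            have := mul_left_cancel₀ hb e
            exact (IsLocalRing.maximalIdeal.isMaximal O).ne_top
              (Ideal.eq_top_of_isUnit_mem _ (this ▸ Ideal.mul_mem_right c _ ((hiff' u).mpr hu)) hsu)
          have ha : χK a = 0 := hinj (by rw [hc, hb, zero_mul, map_zero])
          refine ⟨1, 0, fun h1 => hmax.ne_top (Ideal.eq_top_of_isUnit_mem _ h1 isUnit_one), ?_⟩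
          rw [ha, map_zero]
          simp
        · rintro ⟨s', t', hs', e'⟩
          have e1 : s' * emb (χK a) = t' * emb (χK b) := hcast (by exact_mod_cast e')
          have e2 : emb s * emb (χK b) = emb u * emb (χK a) := by rw [← map_mul, ← map_mul, h]
          have e3 : (s' * emb s - t' * emb u) * emb (χK a) = 0 := by
            linear_combination emb s * e1 + t' * e2
          rcases mul_eq_zero.mp e3 with e4 | e4
          · exact absurd (sub_eq_zero.mp e4 ▸ Ideal.mul_mem_left _ t' hu)
              (fun hmem => (hmax.isPrime.mem_or_mem hmem).elim hs' hs)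
          · rw [hemb_inj (e4.trans (map_zero emb).symm), map_zero]
            exact dvd_zero _
      · refine iff_of_true ?_ ⟨emb u, emb s, hu, ?_⟩
        · have e := congrArg θA h
          rw [map_mul, map_mul] at e
          exact (hunit u hu).dvd_mul_left.mp (e ▸ dvd_mul_left _ _)
        · exact_mod_cast (by rw [← map_mul, ← map_mul, h] :
            emb u * emb (χK a) = emb s * emb (χK b))

theorem exists_hecke_of_mem {x : ℂ} (hx : x ∈ Algebra.adjoin ℤ
    (Set.range fun n : ℕ => qCoeff g n)) :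
    ∃ t : FullHecke L, ConductorLevel.eigenChar hg ∅ t = x := by
  let R : Subalgebra ℤ ℂ := (ConductorLevel.eigenChar hg (∅ : Set ℕ)).toIntAlgHom.range
  suffices h : Algebra.adjoin ℤ (Set.range fun n : ℕ => qCoeff g n) ≤ R by exact h hx
  refine Algebra.adjoin_le ?_
  rintro _ ⟨n, rfl⟩
  show qCoeff g n ∈ R
  have hp : ∀ ℓ : ℕ, ℓ.Prime → qCoeff g ℓ ∈ R := fun ℓ hℓ => by
    refine ⟨HeckeDuality.heckeOp L 2 ℓ hℓ, ?_⟩
    show qCoeff ((HeckeDuality.heckeOp L 2 ℓ hℓ).1 g) 1 = _
    rw [ConductorLevel.heckeOp_eigen hg hℓ, HeckeDuality.coeff_smul, hg.qCoeff_one, mul_one]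
  have hpw : ∀ p : ℕ, p.Prime → ∀ e : ℕ, qCoeff g (p ^ e) ∈ R := by
    intro p hpp e
    induction e using Nat.strong_induction_on with
    | _ e ih =>
      rcases e with - | - | e
      · rw [pow_zero, hg.qCoeff_one]; exact one_mem R
      · rw [zero_add, pow_one]; exact hp p hpp
      · by_cases hd : p ∣ L
        · rw [hg.qCoeff_prime_pow_of_dvd p e hpp hd]
          exact mul_mem (hp p hpp) (ih _ (by omega))
        · rw [hg.qCoeff_prime_pow_of_not_dvd p e hpp hd]
          exact sub_mem (mul_mem (hp p hpp) (ih _ (by omega)))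
            (mul_mem (natCast_mem R p) (ih _ (by omega)))
  induction n using Nat.recOnPosPrimePosCoprime with
  | zero => rw [HeckeDuality.coeff_zero]; exact zero_mem R
  | one => rw [hg.qCoeff_one]; exact one_mem R
  | prime_pow p e hpp _ => exact hpw p hpp e
  | coprime a b _ _ hab iha ihb =>
    rw [hg.qCoeff_mul_of_coprime a b hab]
    exact mul_mem iha ihb

/-- A Hecke element acting by a given coefficient. -/
def heckeOf (x : Algebra.adjoin ℤ (Set.range fun n : ℕ => qCoeff g n)) : FullHecke L :=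
  (exists_hecke_of_mem hg x.2).choose

theorem heckeOf_spec (x : Algebra.adjoin ℤ (Set.range fun n : ℕ => qCoeff g n)) :
    ConductorLevel.eigenChar hg ∅ (heckeOf hg x) = (x : ℂ) :=
  (exists_hecke_of_mem hg x.2).choose_spec

namespace Coeffs

variable {hg} (C : Coeffs hg 𝔪)

theorem θ_eq_of_char {s t : FullHecke L}
    (h : ConductorLevel.eigenChar hg ∅ s = ConductorLevel.eigenChar hg ∅ t) : C.θ s = C.θ t := by
  rw [← sub_eq_zero, ← map_sub, C.θ_eq_zero, map_sub, sub_eq_zero, h]

/-- The coefficients in the two-adic ring. -/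
def coeff : Algebra.adjoin ℤ (Set.range fun n : ℕ => qCoeff g n) →+* C.O where
  toFun x := C.θ (heckeOf hg x)
  map_one' := (C.θ_eq_of_char ((heckeOf_spec hg 1).trans
    (map_one (ConductorLevel.eigenChar hg ∅)).symm)).trans (map_one C.θ)
  map_zero' := (C.θ_eq_of_char ((heckeOf_spec hg 0).trans
    (map_zero (ConductorLevel.eigenChar hg ∅)).symm)).trans (map_zero C.θ)
  map_mul' x y := by
    rw [← map_mul]
    refine C.θ_eq_of_char ?_
    rw [map_mul, heckeOf_spec, heckeOf_spec, heckeOf_spec]
    rfl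
  map_add' x y := by
    rw [← map_add]
    refine C.θ_eq_of_char ?_
    rw [map_add, heckeOf_spec, heckeOf_spec, heckeOf_spec]
    rfl

theorem coeff_apply (x : Algebra.adjoin ℤ (Set.range fun n : ℕ => qCoeff g n)) :
    C.coeff x = C.θ (heckeOf hg x) :=
  rfl

theorem coeff_injective : Function.Injective C.coeff := by
  rw [injective_iff_map_eq_zero]
  intro x hx
  have h := (C.θ_eq_zero _).mp ((C.coeff_apply x).symm.trans hx)
  rw [heckeOf_spec] at h
  exact Subtype.ext h

theorem coeff_compat (x : Algebra.adjoin ℤ (Set.range fun n : ℕ => qCoeff g n)) (y : Forms.ZBar)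
    (h : (x : ℂ) = (y : ℂ)) : C.coeff x ∈ IsLocalRing.maximalIdeal C.O ↔ y ∈ 𝔪 := by
  rw [coeff_apply]
  exact C.θ_mem _ y ((heckeOf_spec hg x).trans h)

theorem coeff_place (x y : Algebra.adjoin ℤ (Set.range fun n : ℕ => qCoeff g n)) :
    C.coeff y ∣ C.coeff x ↔
      ∃ s t : Forms.ZBar, s ∉ 𝔪 ∧ (s : ℂ) * (x : ℂ) = (t : ℂ) * (y : ℂ) := by
  rw [coeff_apply, coeff_apply, C.place, heckeOf_spec, heckeOf_spec]

theorem coeff_prime {ℓ : ℕ} (hℓ : ℓ.Prime) :
    C.coeff ⟨qCoeff g ℓ, Algebra.subset_adjoin ⟨ℓ, rfl⟩⟩ =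
      C.θ (HeckeDuality.heckeOp L 2 ℓ hℓ) := by
  rw [coeff_apply]
  refine C.θ_eq_of_char ((heckeOf_spec hg _).trans ?_)
  show qCoeff g ℓ = qCoeff ((HeckeDuality.heckeOp L 2 ℓ hℓ).1 g) 1
  rw [ConductorLevel.heckeOp_eigen hg hℓ, HeckeDuality.coeff_smul, hg.qCoeff_one, mul_one]

end Coeffs

end Fermat.Agent.TwoAdic.NewformRep2

end
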