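import Fermat.Agent.TwoAdic.NewformRep.Basic
import Fermat.Agent.TwoAdic.LocalTwo.Main

/-!
# The eigen-lattice and the two-power torsion of `J₀(L)`

The coordinates over `ℤ₂` of the levels of a vector of the eigen-lattice are torsion points, in a
way compatible with Galois and the Hecke correspondences.
-/

set_option autoImplicit false
set_option linter.style.haveILetI false

noncomputable section

open CongruenceSubgroup ModularCurve

namespace Fermat.Agent.TwoAdic.NewformRep2

open Arith (QBar GQ)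
open GaloisReps (heckeGaloisModel FullHecke JTors galTors heckeTors matIn)

namespace Coeffs

variable {L : ℕ} [NeZero L] {g : CuspForm (Gamma0 L) 2} {hg : g.IsNormalizedEigenform}
  {𝔪 : Ideal Forms.ZBar} (C : Coeffs hg 𝔪)

/-- The identifications of the two-power torsion underlying the model. -/
abbrev tIso (L : ℕ) [NeZero L] : GaloisReps.TorsionIso L 2 :=
  GaloisReps.torsionIso L 2 (GaloisReps.conjProperty L)

/-- The coefficient ring is finite and free over `ℤ₂`. -/
theorem free_coeff : letI := C.ι.toAlgebra; Module.Free ℤ_[2] C.O := by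
  letI := C.ι.toAlgebra
  have : Module.Finite ℤ_[2] C.O := C.ι_finite
  have hinj : Function.Injective (algebraMap ℤ_[2] C.O) := by
    refine (injective_iff_map_eq_zero _).2 fun a ha => by_contra fun h0 => ?_
    rw [PadicInt.unitCoeff_spec h0, map_mul, map_pow, map_natCast] at ha
    rcases mul_eq_zero.1 ha with h | h
    · exact ((PadicInt.unitCoeff h0).isUnit.map (algebraMap ℤ_[2] C.O)).ne_zero h
    · exact pow_ne_zero _ (Nat.cast_ne_zero.2 Nat.prime_two.ne_zero) h
  have : Module.IsTorsionFree ℤ_[2] C.O := Module.isTorsionFree_iff_algebraMap_injective.2 hinj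
  exact Module.free_of_finite_type_torsion_free'

/-- The rank of the coefficient ring. -/
def rk : ℕ :=
  letI := C.ι.toAlgebra
  Module.finrank ℤ_[2] C.O

/-- A coordinate on the coefficient ring over `ℤ₂`. -/
def co (i : Fin C.rk) : C.O →+ ℤ_[2] :=
  letI := C.ι.toAlgebra
  haveI : Module.Finite ℤ_[2] C.O := C.ι_finite
  haveI : Module.Free ℤ_[2] C.O := C.free_coeff
  ((Module.finBasis ℤ_[2] C.O).coord i).toAddMonoidHom

theorem co_ι_mul (i : Fin C.rk) (c : ℤ_[2]) (x : C.O) : C.co i (C.ι c * x) = c * C.co i x := by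
  letI := C.ι.toAlgebra
  haveI : Module.Finite ℤ_[2] C.O := C.ι_finite
  haveI : Module.Free ℤ_[2] C.O := C.free_coeff
  show (Module.finBasis ℤ_[2] C.O).coord i (C.ι c * x) = _
  rw [show C.ι c * x = c • x from rfl, map_smul]
  rfl

theorem dvd_of_co {x : C.O} {k : ℕ}
    (h : ∀ i, PadicInt.toZModPow k (C.co i x) = 0) : (2 : C.O) ^ k ∣ x := by
  letI := C.ι.toAlgebra
  haveI : Module.Finite ℤ_[2] C.O := C.ι_finite
  haveI : Module.Free ℤ_[2] C.O := C.free_coeff
  rw [← (Module.finBasis ℤ_[2] C.O).sum_repr x]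
  refine Finset.dvd_sum fun i _ => ?_
  have hi : (Module.finBasis ℤ_[2] C.O).repr x i ∈
      RingHom.ker (PadicInt.toZModPow (p := 2) k) := h i
  rw [PadicInt.ker_toZModPow, Ideal.mem_span_singleton] at hi
  obtain ⟨c, hc⟩ := hi
  rw [hc, Algebra.smul_def, map_mul, map_pow]
  refine Dvd.dvd.mul_right (Dvd.dvd.mul_right ?_ _) _
  exact dvd_of_eq (by rw [map_natCast]; norm_num)

/-- Multiplication of a vector by a matrix over `ℤ₂` commutes with the coordinates. -/
theorem co_mulVec (i : Fin C.rk) (M : Matrix (Fin (heckeGaloisModel L 2).d)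
    (Fin (heckeGaloisModel L 2).d) ℤ_[2]) (v : Fin (heckeGaloisModel L 2).d → C.O) :
    (fun j => C.co i ((M.map C.ι).mulVec v j)) = M.mulVec fun j => C.co i (v j) := by
  funext j
  show C.co i (∑ l, C.ι (M j l) * v l) = ∑ l, M j l * C.co i (v l)
  rw [map_sum]
  exact Finset.sum_congr rfl fun l _ => C.co_ι_mul i _ _

/-- The torsion point of level `2 ^ k` given by a coordinate of a vector. -/
def tors (k : ℕ) (i : Fin C.rk) : C.Lat →+ JTors L 2 k :=
  ((tIso L).psi k).symm.toAddMonoidHom.comp (AddMonoidHom.mk'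
    (fun v j => PadicInt.toZModPow k (C.co i (v.1 j)))
    fun v w => funext fun j => by
      show PadicInt.toZModPow k (C.co i (v.1 j + w.1 j)) = _
      rw [map_add, map_add]
      rfl)

theorem psi_tors (k : ℕ) (i : Fin C.rk) (v : C.Lat) :
    (tIso L).psi k (C.tors k i v) = fun j => PadicInt.toZModPow k (C.co i (v.1 j)) :=
  ((tIso L).psi k).apply_symm_apply _

theorem map_toZModPow_mulVec (k : ℕ) (M : Matrix (Fin (heckeGaloisModel L 2).d)
    (Fin (heckeGaloisModel L 2).d) ℤ_[2]) (w : Fin (heckeGaloisModel L 2).d → ℤ_[2]) :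
    (fun j => PadicInt.toZModPow k (M.mulVec w j)) =
      (M.map (PadicInt.toZModPow k)).mulVec fun j => PadicInt.toZModPow k (w j) :=
  funext fun j => RingHom.map_mulVec _ M w j

theorem galTors_tors (k : ℕ) (i : Fin C.rk) (σ : GQ) (v : C.Lat) :
    galTors k σ (C.tors k i v) = C.tors k i (C.act σ v) := by
  refine ((tIso L).psi k).injective ?_
  rw [← GaloisReps.TorsionIso.galLvl_mulVec, ← GaloisReps.TorsionIso.map_gal, psi_tors, psi_tors]
  refine (map_toZModPow_mulVec k _ _).symm.trans ?_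
  funext j
  refine congrArg _ ?_
  refine (congrFun (C.co_mulVec i ((heckeGaloisModel L 2).gal σ) v.1) j).symm.trans ?_
  show C.co i _ = C.co i _
  refine congrArg _ (congrFun ?_ j)
  exact ((heckeGaloisModel L 2).coe_eigenAction C.ι C.θ σ v).symm

theorem heckeTors_tors (k : ℕ) (i : Fin C.rk) {ℓ : ℕ} (hℓ : ℓ.Prime) (v : C.Lat) :
    heckeTors k ⟨ℓ, hℓ⟩ (C.tors k i v) =
      C.tors k i (C.θ (HeckeDuality.heckeOp L 2 ℓ hℓ) • v) := by
  refine ((tIso L).psi k).injective ?_
  rw [← GaloisReps.TorsionIso.mat_mulVec, GaloisReps.TorsionIso.mat_heckeTors, psi_tors, psi_tors,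
    ← GaloisReps.map_intCast_toZModPow]
  refine (map_toZModPow_mulVec k _ _).symm.trans ?_
  funext j
  refine congrArg _ ?_
  refine (congrFun (C.co_mulVec i _ v.1) j).symm.trans ?_
  show C.co i _ = C.co i _
  refine congrArg _ (congrFun ?_ j)
  rw [SetLike.val_smul, ← (GaloisReps.mem_eigenspace (heckeGaloisModel L 2).hecke C.θ _).mp v.2,
    ← (heckeGaloisModel L 2).matIn_map C.ι, GaloisReps.matIn_apply]
  exact congrArg (fun M : Matrix (Fin (heckeGaloisModel L 2).d)
    (Fin (heckeGaloisModel L 2).d) ℤ => ((M.map (Int.castRingHom ℤ_[2])).map C.ι).mulVec v.1)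
    (GaloisReps.latticeMat_heckeOp ℓ hℓ).symm

/-- The classes given by a coordinate at one level. -/
def pts (k : ℕ) (i : Fin C.rk) : C.Lat →+ JZero L :=
  (JTors L 2 k).subtype.comp (C.tors k i)

theorem smul_pts (k : ℕ) (i : Fin C.rk) (σ : GQ) (v : C.Lat) :
    σ • C.pts k i v = C.pts k i (C.act σ v) :=
  congrArg Subtype.val (C.galTors_tors k i σ v)

theorem hecke_pts (k : ℕ) (i : Fin C.rk) {ℓ : ℕ} (hℓ : ℓ.Prime) (v : C.Lat) :
    heckeOperatorBar L ⟨ℓ, hℓ⟩ (C.pts k i v) =
      C.pts k i (C.θ (HeckeDuality.heckeOp L 2 ℓ hℓ) • v) :=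
  congrArg Subtype.val (C.heckeTors_tors k i hℓ v)

theorem pow_smul_pts (k : ℕ) (i : Fin C.rk) (v : C.Lat) : (2 ^ k) • C.pts k i v = 0 := by
  rw [← natCast_zsmul]
  exact AlgebraicCurve.Pic0.mem_torsion.mp (C.tors k i v).2

/-- A vector divisible by `2 ^ k` gives trivial classes at level `k`. -/
theorem pts_eq_zero {k : ℕ} (i : Fin C.rk) {v : C.Lat} (h : ∀ j, (2 : C.O) ^ k ∣ v.1 j) :
    C.pts k i v = 0 := by
  have h0 : C.tors k i v = 0 := by
    refine ((tIso L).psi k).injective ?_
    rw [psi_tors, map_zero]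
    funext j
    obtain ⟨c, hc⟩ := h j
    rw [hc, show (2 : C.O) ^ k = C.ι ((2 : ℤ_[2]) ^ k) by rw [map_pow, map_ofNat], C.co_ι_mul,
      map_mul, map_pow, map_ofNat]
    have h2 : (2 : ZMod (2 ^ k)) ^ k = 0 := by
      have := ZMod.natCast_self (2 ^ k)
      push_cast at this
      exact this
    rw [h2, zero_mul]
    rfl
  show ((C.tors k i v : JTors L 2 k) : JZero L) = 0
  rw [h0]
  rfl

/-- The classes at level `k` of a vector vanish only if it is divisible by `2 ^ k`. -/
theorem dvd_of_pts {k : ℕ} {v : C.Lat} (h : ∀ i, C.pts k i v = 0) (j) :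
    (2 : C.O) ^ k ∣ v.1 j := by
  refine C.dvd_of_co fun i => ?_
  have h0 : C.tors k i v = 0 := Subtype.ext (h i)
  have := congrArg ((tIso L).psi k) h0
  rw [psi_tors, map_zero] at this
  exact congrFun this j

end Coeffs

end Fermat.Agent.TwoAdic.NewformRep2

end
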