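import Fermat.Agent.TwoAdic.NewformRep.Basic
import Fermat.Agent.TwoAdic.Galois.Basic
import Fermat.Agent.Semistable.Toric.Model
import Fermat.Agent.Semistable.Unipotent.Main
import Fermat.Agent.GaloisReps.UnipotentModel
import Fermat.Agent.NewformLocal.Assembly

/-!
# The two-adic representation of a newform at the odd primes exactly dividing the level
-/

set_option autoImplicit false

noncomputable section

open CongruenceSubgroup

namespace Fermat.Agent.TwoAdic.NewformRep2

open Arith (QBar GQ)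
open GaloisReps (heckeGaloisModel FullHecke matIn toFull)
open NewformLocal (toricOp)

section Plane

variable {O V : Type*} [CommRing O] [IsDomain O] [CharZero O] [AddCommGroup V] [Module O V]
  [Module.Free O V] [Module.Finite O V]

/-- The shape of a Frobenius at a prime `q > 1` normalising a group of unipotent automorphisms of a
plane, whose square is `q ^ 2` on the fixed vectors. -/
theorem plane_special {G : Type*} [Group G] (hV : Module.finrank O V = 2) (f : G →* Module.End O V)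
    (I : Subgroup G) (σ : G) (hnorm : ∀ τ ∈ I, σ⁻¹ * τ * σ ∈ I)
    (hunip : ∀ τ ∈ I, (f τ - 1) ^ 2 = 0) {q : ℕ} (hq : 1 < q)
    (hdet : LinearMap.det (f σ) = (q : O))
    (hsq : ∀ v : V, (∀ τ ∈ I, f τ v = v) → f σ (f σ v) = (q : O) ^ 2 • v) :
    ∃ δ : O, δ * δ = 1 ∧ LinearMap.trace O V (f σ) = δ * (1 + (q : O)) ∧
      ∀ τ ∈ I, (f τ - 1) * (f σ - δ • 1) = 0 := by
  classical
  have hne : (q : O) ^ 2 ≠ q := fun h => by
    rw [pow_two, ← Nat.cast_mul, Nat.cast_inj] at h
    nlinarith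
  have hq0 : (q : O) ≠ 0 := Nat.cast_ne_zero.2 (by omega)
  obtain ⟨τ₁, hτ₁, hne1⟩ : ∃ τ ∈ I, f τ ≠ 1 := by
    by_contra! h
    have e : f σ * f σ = ((q : O) ^ 2) • (1 : Module.End O V) := LinearMap.ext fun v => by
      rw [Module.End.mul_apply, hsq v fun τ hτ => by rw [h τ hτ]; rfl]
      rfl
    have h4 := congrArg LinearMap.det e
    rw [map_mul, hdet, LinearMap.det_smul, hV, map_one, mul_one] at h4
    have : q * q = (q ^ 2) ^ 2 := Nat.cast_inj (R := O) |>.1 (by push_cast; exact h4)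
    nlinarith [Nat.mul_le_mul hq.le hq.le]
  set N := f τ₁ - 1 with hN
  have hNN : ∀ x, N (N x) = 0 := fun x => by
    have := LinearMap.congr_fun (hunip τ₁ hτ₁) x
    rwa [pow_two] at this
  obtain ⟨u, hu⟩ : ∃ u, N u ≠ 0 := by
    by_contra! h
    exact hne1 (sub_eq_zero.1 (LinearMap.ext h))
  set v := N u with hv
  have hfix : ∀ τ ∈ I, f τ v = v := fun τ hτ => by
    have h := NewformLocal.nilp_apply_eq_zero hV (n₀ := N) (n := f τ - 1)
      (by rw [← pow_two]; exact hunip τ₁ hτ₁) (by rw [← pow_two]; exact hunip τ hτ) ?_ u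
    · rwa [LinearMap.sub_apply, Module.End.one_apply, sub_eq_zero] at h
    · have e : N + (f τ - 1) + N * (f τ - 1) = f (τ₁ * τ) - 1 := by
        rw [hN, map_mul]; noncomm_ring
      rw [e, ← pow_two]
      exact hunip _ (mul_mem hτ₁ hτ)
  have hi : LinearIndependent O ![u, v] := by
    refine LinearIndependent.pair_iff.2 fun a b hab => ?_
    have h1 := congrArg N hab
    rw [map_add, map_smul, map_smul, hNN, smul_zero, add_zero, map_zero] at h1
    have ha : a = 0 := (smul_eq_zero.1 h1).resolve_right hu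
    rw [ha, zero_smul, zero_add] at hab
    exact ⟨ha, (smul_eq_zero.1 hab).resolve_right hu⟩
  -- the Frobenius acts on the fixed line by `± q`
  obtain ⟨δ, hδ, hσv⟩ : ∃ δ : O, δ * δ = 1 ∧ f σ v = (δ * q) • v := by
    have hfix' : ∀ τ ∈ I, f τ (f σ v) = f σ v := fun τ hτ => by
      have h := congrArg (f σ) (hfix _ (hnorm τ hτ))
      rwa [← Module.End.mul_apply, ← map_mul,
        show σ * (σ⁻¹ * τ * σ) = τ * σ by group, map_mul, Module.End.mul_apply] at h
    obtain ⟨r, a, b, hr, hab⟩ := NewformLocal.exists_smul_eq_comb hV hi (f σ v)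
    have h1 := congrArg N hab
    rw [map_smul, show N (f σ v) = 0 by rw [hN, LinearMap.sub_apply, Module.End.one_apply,
      hfix' τ₁ hτ₁, sub_self], smul_zero, map_add, map_smul, map_smul, hNN, smul_zero, add_zero]
      at h1
    have ha : a = 0 := (smul_eq_zero.1 h1.symm).resolve_right hu
    rw [ha, zero_smul, zero_add] at hab
    have h2 : (b * b) • v = (r * q * (r * q)) • v := by
      have h : r • f σ (r • f σ v) = r • f σ (b • v) := by rw [hab]
      rw [map_smul, map_smul, hsq v hfix, smul_comm r b, hab, smul_smul, smul_smul, smul_smul] at h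
      rw [← h]
      ring_nf
    rcases mul_self_eq_mul_self_iff.1 (smul_left_injective O hu h2) with hb | hb
    · refine ⟨1, one_mul 1, smul_right_injective V hr ?_⟩
      show r • f σ v = r • ((1 * (q : O)) • v)
      rw [hab, smul_smul, hb, one_mul]
    · refine ⟨-1, by ring, smul_right_injective V hr ?_⟩
      show r • f σ v = r • ((-1 * (q : O)) • v)
      rw [hab, smul_smul, hb, neg_one_mul, mul_neg]
  let bV := Module.finBasisOfFinrankEq O V hV
  set t := LinearMap.trace O V (f σ) with ht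
  have hc : LinearMap.charpoly (f σ) =
      Polynomial.X ^ 2 - Polynomial.C t * Polynomial.X + Polynomial.C (q : O) := by
    rw [← LinearMap.charpoly_toMatrix (f σ) bV, Matrix.charpoly_fin_two, LinearMap.det_toMatrix,
      hdet, ht, LinearMap.trace_eq_matrix_trace O bV]
  have hCH : ∀ x, f σ (f σ x) = t • f σ x - (q : O) • x := fun x => by
    have h := LinearMap.congr_fun (LinearMap.aeval_self_charpoly (f σ)) x
    rw [hc] at h
    simp only [map_add, map_sub, map_mul, Polynomial.aeval_X, Polynomial.aeval_C,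
      LinearMap.add_apply, LinearMap.sub_apply, Module.End.mul_apply,
      Module.algebraMap_end_apply, pow_two, LinearMap.zero_apply] at h
    rw [← sub_eq_zero, ← h]
    abel
  have htr : t = δ * (1 + (q : O)) := by
    have h := hCH v
    rw [hσv, map_smul, hσv, smul_smul, smul_smul, ← sub_smul] at h
    have h2 := smul_left_injective O hu h
    have h3 : (δ * (q : O)) * t = (δ * (q : O)) * (δ * (1 + (q : O))) := by
      linear_combination -h2 - (q : O) * hδ
    refine mul_left_cancel₀ (mul_ne_zero (fun h0 => ?_) hq0) h3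
    rw [h0, mul_zero] at hδ
    exact zero_ne_one hδ
  refine ⟨δ, hδ, htr, fun τ hτ => LinearMap.ext fun w => ?_⟩
  show (f τ - 1) (f σ w - δ • w) = 0
  set y := f σ w - δ • w with hy
  have hσy : f σ y = (δ * q) • y := by
    rw [hy, map_sub, map_smul, hCH, htr, smul_sub, smul_smul]
    have e : δ * (q : O) * δ = q := by linear_combination (q : O) * hδ
    rw [e, mul_add, mul_one, add_smul]
    abel
  obtain ⟨r, a, b, hr, hab⟩ := NewformLocal.exists_smul_eq_comb hV hi y
  have h1 := congrArg (fun x => f σ x - (δ * q) • x) hab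
  simp only [map_smul, map_add, hσy, hσv, smul_add] at h1
  rw [smul_comm (δ * (q : O)) r, sub_self, smul_comm (δ * (q : O)) b, add_sub_add_right_eq_sub,
    smul_comm (δ * (q : O)) a, ← smul_sub, eq_comm, smul_eq_zero] at h1
  rcases h1 with ha | hz
  · rw [ha, zero_smul, zero_add] at hab
    have h2 := congrArg (fun x => (f τ - 1 : Module.End O V) x) hab
    simp only [map_smul, LinearMap.sub_apply, Module.End.one_apply, hfix τ hτ, sub_self, smul_zero] at h2
    exact (smul_eq_zero.1 h2).resolve_left hr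
  · exfalso
    have hscal : f σ = (δ * (q : O)) • 1 := LinearMap.ext fun x => by
      obtain ⟨r', a', b', hr', hx⟩ := NewformLocal.exists_smul_eq_comb hV hi x
      refine smul_right_injective V hr' ?_
      show r' • f σ x = r' • ((δ * (q : O)) • x)
      rw [← map_smul, hx, map_add, map_smul, map_smul, sub_eq_zero.1 hz, hσv, smul_comm r',
        hx, smul_add, smul_comm a', smul_comm b']
    have h4 : LinearMap.det (f σ) = (δ * (q : O)) ^ 2 := by
      rw [hscal, LinearMap.det_smul, hV, map_one, mul_one]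
    rw [hdet, mul_pow, pow_two δ, hδ, one_mul] at h4
    exact hne h4.symm

end Plane

/-- A two by two unipotent matrix over a domain has trace two. -/
theorem trace_eq_two_of_sq {R : Type} [CommRing R] [IsDomain R] {X : M2 R}
    (h : (X - 1) ^ 2 = 0) : X.trace = 2 := by
  have hd : (X - 1).det = 0 := by
    have := congrArg Matrix.det h
    rw [Matrix.det_pow, Matrix.det_zero] at this
    exact pow_eq_zero_iff two_ne_zero |>.1 this
  have h00 := congrFun (congrFun h 0) 0
  have h11 := congrFun (congrFun h 1) 1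
  rw [pow_two, Matrix.mul_apply, Fin.sum_univ_two] at h00 h11
  rw [Matrix.det_fin_two] at hd
  simp only [Matrix.sub_apply, Matrix.one_apply_eq, Matrix.zero_apply,
    Matrix.one_apply_ne (show (0 : Fin 2) ≠ 1 by decide),
    Matrix.one_apply_ne (show (1 : Fin 2) ≠ 0 by decide)] at h00 h11 hd
  rw [Matrix.trace_fin_two, ← sub_eq_zero]
  refine pow_eq_zero_iff two_ne_zero |>.1 ?_
  linear_combination h00 + h11 + 2 * hd

namespace Coeffs

variable {L : ℕ} [NeZero L] {g : CuspForm (Gamma0 L) 2} (hg : g.IsNewform)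
  {𝔪 : Ideal Forms.ZBar} (C : Coeffs hg.1 𝔪)

theorem finrank_lat : Module.finrank C.O C.Lat = 2 :=
  (heckeGaloisModel L 2).finrank_eigenspace_domain C.θ

theorem sq_sub_one_act {q : ℕ} (hq : q.Prime) (hqL : q ∣ L) (hq2 : q ≠ 2) (hsq : ¬ q ^ 2 ∣ L)
    {A : ValuationSubring QBar} (hA : A.LiesOverPrime q) {τ : GQ}
    (hτ : τ ∈ A.inertiaSubgroupIn ℚ) : (C.act τ - 1) ^ 2 = 0 := by
  have hU : NewformLocal.UnipotentAt (heckeGaloisModel L 2) q :=
    GaloisReps.unipotentAt_modelOfCongruence (GaloisReps.congruenceProperty L 2) hq hq2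
      (Semistable.Unipotent.torsionUnipotentAt hq hqL hsq)
  refine LinearMap.ext fun v => Subtype.ext ?_
  have h0 := congrArg C.ι.mapMatrix (hU A hA τ hτ)
  rw [pow_two, map_mul, map_sub, map_one, map_zero, RingHom.mapMatrix_apply] at h0
  have h := congrArg (fun m : Matrix (Fin (heckeGaloisModel L 2).d)
    (Fin (heckeGaloisModel L 2).d) C.O => m.mulVec v.1) h0
  simp only [Matrix.zero_mulVec, ← Matrix.mulVec_mulVec, Matrix.sub_mulVec, Matrix.one_mulVec,
    Matrix.mulVec_sub] at h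
  simp only [act, pow_two, Module.End.mul_apply, LinearMap.sub_apply, Module.End.one_apply,
    AddSubgroupClass.coe_sub, GaloisReps.HeckeGaloisModel.coe_eigenAction, LinearMap.zero_apply,
    ZeroMemClass.coe_zero, Matrix.mulVec_sub] at h ⊢
  exact h

theorem sq_act_eq {q : ℕ} (hq : q.Prime) (hqL : q ∣ L) (hq2 : q ≠ 2) (hsq : ¬ q ^ 2 ∣ L)
    {A : ValuationSubring QBar} (hA : A.LiesOverPrime q) {σ : GQ} (hσ : A.IsFrobeniusAt σ q)
    {v : C.Lat} (hv : ∀ τ ∈ A.inertiaSubgroupIn ℚ, C.act τ v = v) :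
    C.act σ (C.act σ v) = (q : C.O) ^ 2 • v := by
  have : Fact q.Prime := ⟨hq⟩
  have hR : L / q ∣ L := Nat.div_dvd_of_dvd hqL
  have hRq : L / q * q = L := Nat.div_mul_cancel hqL
  have : NeZero (L / q) := ⟨fun h => NeZero.ne L (by rw [← hRq, h, zero_mul])⟩
  obtain ⟨t, ht, htg⟩ := NewformLocal.exists_killsOld_ne_zero hg hR
    (Nat.div_lt_self (Nat.pos_of_ne_zero (NeZero.ne L)) hq.one_lt).ne
  obtain ⟨ℓ, hℓ, hℓT, hne⟩ := NewformLocal.exists_coeff_ne_succ hg.1 (L * 2).primeFactors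
  have hℓN : ¬ ℓ ∣ L * 2 := fun h => hℓT (Nat.mem_primeFactors.mpr
    ⟨hℓ, h, mul_ne_zero (NeZero.ne L) two_ne_zero⟩)
  have hθt : C.θ (toricOp t hℓ) ≠ 0 := fun h0 => by
    rw [C.θ_eq_zero, toricOp, map_mul, map_sub, map_natCast, NewformLocal.eigenChar_toFull,
      mul_eq_zero] at h0
    have hℓM : ¬ ℓ ∣ L := fun h => hℓN (dvd_mul_of_dvd_left h 2)
    have h3 : ConductorLevel.eigenChar hg.1 ∅ (HeckeDuality.heckeOp L 2 ℓ hℓ) =
        ModularFormClass.qCoeff g ℓ := by
      rw [HeckeDuality.heckeOp, dif_neg hℓM]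
      exact ConductorLevel.eigenChar_T hg.1 hℓ hℓM _
    rw [h3, sub_eq_zero, Nat.cast_add, Nat.cast_one] at h0
    exact h0.elim htg hne
  refine Subtype.ext ?_
  set D := heckeGaloisModel L 2
  have hT : NewformLocal.ToricSquareAt D q := Semistable.Toric.toricSquareAt hq2 hsq
  have h := NewformLocal.mulVec_eq_zero_of_fixed C.ι (D.gal '' (A.inertiaSubgroupIn ℚ : Set GQ))
    (D.gal σ * D.gal σ * matIn D.hecke ℤ_[2] (toricOp t hℓ) -
      (q : ℤ_[2]) ^ 2 • matIn D.hecke ℤ_[2] (toricOp t hℓ))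
    (fun w hw => hT (L / q) hR hRq t ht ℓ hℓ hℓN A hA σ hσ w fun τ hτ => hw _ ⟨τ, hτ, rfl⟩)
    (v := v.1) (by
      rintro _ ⟨τ, hτ, rfl⟩
      rw [← D.coe_eigenAction]
      exact congrArg Subtype.val (hv τ hτ))
  have e : C.ι.mapMatrix ((q : ℤ_[2]) ^ 2 • matIn D.hecke ℤ_[2] (toricOp t hℓ)) =
      (q : C.O) ^ 2 • matIn D.hecke C.O (toricOp t hℓ) := by
    ext i j
    simp
  rw [← RingHom.mapMatrix_apply, map_sub, map_mul, map_mul, e, RingHom.mapMatrix_apply,
    RingHom.mapMatrix_apply, D.matIn_map, Matrix.sub_mulVec, Matrix.smul_mulVec,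
    ← Matrix.mulVec_mulVec, ← Matrix.mulVec_mulVec,
    (GaloisReps.mem_eigenspace D.hecke C.θ _).1 v.2 (toricOp t hℓ), Matrix.mulVec_smul,
    Matrix.mulVec_smul, smul_comm ((q : C.O) ^ 2), ← smul_sub] at h
  show ((D.eigenAction C.ι C.θ σ (D.eigenAction C.ι C.θ σ v) : C.Lat) : Fin D.d → C.O) = _
  rw [SetLike.val_smul, D.coe_eigenAction, D.coe_eigenAction]
  exact sub_eq_zero.1 ((smul_eq_zero.1 h).resolve_left hθt)

theorem det_act_frobenius {q : ℕ} (hq : q.Prime) (hq2 : q ≠ 2) {A : ValuationSubring QBar}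
    (hA : A.LiesOverPrime q) {σ : GQ} (hσ : A.IsFrobeniusAt σ q) :
    LinearMap.det (C.act σ) = (q : C.O) :=
  (heckeGaloisModel L 2).det_eigenAction_of_roots C.ι C.θ C.natTwo_mem fun _ _ hζ =>
    GaloisReps.frobenius_apply_root hA hq hσ hζ fun h =>
      hq2 ((Nat.prime_dvd_prime_iff_eq hq Nat.prime_two).1 (hq.dvd_of_dvd_pow h))

/-- At one place over an odd prime exactly dividing the level. -/
theorem special_place {q : ℕ} (hq : q.Prime) (hqL : q ∣ L) (hq2 : q ≠ 2) (hsq : ¬ q ^ 2 ∣ L)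
    {A : ValuationSubring QBar} (hA : A.LiesOverPrime q) {σ : GQ} (hσ : A.IsFrobeniusAt σ q) :
    ∃ δ : C.O, δ * δ = 1 ∧ (C.rep σ).trace = δ * (1 + (q : C.O)) ∧
      ∀ τ ∈ A.inertiaSubgroupIn ℚ, (C.rep τ - 1) * (C.rep σ - δ • 1) = 0 := by
  obtain ⟨δ, hδ, htr, hτσ⟩ := plane_special (C.finrank_lat hg) C.act (A.inertiaSubgroupIn ℚ) σ
    (fun τ hτ => by
      refine (Arith.mem_inertia_smul_iff (g := σ)).1 ?_
      rw [Arith.mem_decomposition_iff.1 hσ.mem_decompositionSubgroup]
      simpa [mul_assoc] using hτ)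
    (fun τ hτ => C.sq_sub_one_act hg hq hqL hq2 hsq hA hτ) hq.one_lt
    (C.det_act_frobenius hg hq hq2 hA hσ) fun v hv => C.sq_act_eq hg hq hqL hq2 hsq hA hσ hv
  refine ⟨δ, hδ, (C.trace_rep σ).trans htr, fun τ hτ => ?_⟩
  rw [rep_apply, rep_apply, ← map_one C.toMat, ← map_smul, ← map_sub, ← map_sub, ← map_mul,
    hτσ τ hτ, map_zero]

theorem special {q : ℕ} (hq : q.Prime) (hqL : q ∣ L) (hq2 : q ≠ 2) (hsq : ¬ q ^ 2 ∣ L) :
    ∃ δ : C.O, δ * δ = 1 ∧ ∀ P : ValuationSubring QBar, P.LiesOverPrime q →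
      (∀ τ ∈ P.inertiaSubgroupIn ℚ, (C.rep τ - 1) ^ 2 = 0 ∧ (C.rep τ).trace = 2) ∧
      ∀ σ : GQ, P.IsFrobeniusAt σ q → (C.rep σ).trace = δ * (1 + (q : C.O)) ∧
        ∀ τ ∈ P.inertiaSubgroupIn ℚ, (C.rep τ - 1) * (C.rep σ - δ • 1) = 0 := by
  obtain ⟨A₀, hA₀⟩ := Arith.exists_liesOverPrime hq
  obtain ⟨σ₀, hσ₀⟩ := Arith.exists_isFrobeniusAt hA₀ hq
  obtain ⟨δ, hδ, htr₀, -⟩ := C.special_place hg hq hqL hq2 hsq hA₀ hσ₀
  refine ⟨δ, hδ, fun P hP => ⟨fun τ hτ => ?_, fun σ hσ => ?_⟩⟩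
  · have h : (C.rep τ - 1) ^ 2 = 0 := by
      rw [rep_apply, ← map_one C.toMat, ← map_sub, ← map_pow, C.sq_sub_one_act hg hq hqL hq2 hsq hP hτ,
        map_zero]
    exact ⟨h, trace_eq_two_of_sq h⟩
  · obtain ⟨δ', -, htr, hτσ⟩ := C.special_place hg hq hqL hq2 hsq hP hσ
    obtain ⟨h, τ, hτ, e⟩ := frobenius_eq_conj_mul hq hA₀ hP hσ₀ hσ
    have hδ' : δ' = δ := by
      have e2 : σ * τ⁻¹ = h * σ₀ * h⁻¹ := by rw [e, mul_inv_cancel_right]
      have e3 : (C.rep σ * C.rep τ⁻¹).trace = δ * (1 + (q : C.O)) := by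
        rw [← map_mul, e2, map_mul, Matrix.trace_mul_comm, ← map_mul, ← mul_assoc,
          inv_mul_cancel, one_mul, htr₀]
      have hz := hτσ _ (inv_mem hτ)
      have e4 : (C.rep τ⁻¹ - 1).trace = 0 := by
        have hu : (C.rep τ⁻¹ - 1) ^ 2 = 0 := by
          rw [rep_apply, ← map_one C.toMat, ← map_sub, ← map_pow,
            C.sq_sub_one_act hg hq hqL hq2 hsq hP (inv_mem hτ), map_zero]
        rw [Matrix.trace_sub, trace_eq_two_of_sq hu, Matrix.trace_one,
          Fintype.card_fin, Nat.cast_ofNat, sub_self]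
      rw [mul_sub, mul_smul_comm, mul_one, sub_eq_zero] at hz
      have e5 := congrArg Matrix.trace hz
      rw [Matrix.trace_smul, e4, smul_zero, sub_mul, one_mul, Matrix.trace_sub,
        Matrix.trace_mul_comm, e3, htr,
        sub_eq_zero] at e5
      refine mul_right_cancel₀ (fun h0 => ?_) e5.symm
      rw [← Nat.cast_one, ← Nat.cast_add, Nat.cast_eq_zero] at h0
      omega
    exact ⟨hδ' ▸ htr, hδ' ▸ hτσ⟩

end Coeffs

end Fermat.Agent.TwoAdic.NewformRep2

end
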